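import Fermat.Agent.CFT.Euler.Quo

/-!
Kummer theory as an abstract pairing: if a module over the quotient of two subgroups pairs
equivariantly with the smaller one onto its continuous characters modulo `p`, then the first
cohomology of the larger one has the size of equivariant maps into that module modulo `p`.
-/

set_option autoImplicit false

noncomputable section

open scoped Classical

namespace FermatAgent.CFT.LocalEuler

open Coh Euler

variable {Γ : Type} [Group Γ] {L : Levels Γ} {W V : Subgroup Γ} [hn : (V.subgroupOf W).Normal]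
  {p : ℕ} [hp : Fact p.Prime] {χ : Γ →* (ZMod p)ˣ}

/-- A pairing of a module over the quotient with the smaller subgroup, with values modulo `p`,
which identifies the module modulo `p` with the continuous characters of the smaller subgroup. -/
structure KummerPairing (L : Levels Γ) (W V : Subgroup Γ) [(V.subgroupOf W).Normal] {p : ℕ}
    (χ : Γ →* (ZMod p)ˣ) (M : Type) [AddCommGroup M] [DistribMulAction (QG W V) M] where
  /-- The pairing. -/
  pair : M → Γ → ZMod p
  add : ∀ x y, ∀ g ∈ V ⊓ W, pair (x + y) g = pair x g + pair y g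
  map_mul : ∀ x, ∀ g ∈ V ⊓ W, ∀ h ∈ V ⊓ W, pair x (g * h) = pair x g + pair x h
  nsmul : ∀ x, ∀ g ∈ V ⊓ W, pair (p • x) g = 0
  equivariant : ∀ (w : W) x, ∀ g ∈ V ⊓ W,
    pair (qg W V w • x) g = (χ (w : Γ) : ZMod p) * pair x ((w : Γ)⁻¹ * g * (w : Γ))
  left_inj : ∀ x, (∀ g ∈ V ⊓ W, pair x g = 0) → ∃ y, p • y = x
  exists_eq : ∀ a : Γ → ZMod p, (∀ g ∈ V ⊓ W, ∀ h ∈ V ⊓ W, a (g * h) = a g + a h) →
    (∃ U ∈ L, ∀ g ∈ V ⊓ W, ∀ s ∈ U, s ∈ V ⊓ W → a (g * s) = a g) →
    ∃ x, ∀ g ∈ V ⊓ W, pair x g = a g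
  continuous : ∀ x, ∃ U ∈ L, ∀ s ∈ U, s ∈ V ⊓ W → pair x s = 0

variable {N : Type} [AddCommGroup N] [DistribMulAction W N]

omit hn in
/-- Evaluation identifies a module killed by `p` with the bidual. -/
private lemma bijective_bidual [Finite N] (hN : ∀ n : N, p • n = 0)
    (ψ : W →* (ZMod p)ˣ) :
    ∃ e : N ≃ (Dual ψ N →+ ZMod p), ∀ n f, e n f = Dual.hom ψ N f n := by
  have : NeZero p := ⟨hp.out.ne_zero⟩
  have : Finite (Dual ψ N) := DFunLike.finite (N →+ ZMod p)
  have := DFunLike.finite (Dual ψ N →+ ZMod p)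
  let ev : N →+ (Dual ψ N →+ ZMod p) := AddMonoidHom.mk'
    (fun n => AddMonoidHom.mk' (fun f => Dual.hom _ N f n) fun f f' => rfl)
    fun n m => AddMonoidHom.ext fun f => map_add (Dual.hom _ N f) n m
  have hinj : Function.Injective ev := (injective_iff_map_eq_zero ev).mpr fun n h => by
    by_contra hne
    obtain ⟨φ, hφ⟩ := Global.exists_hom_ne_zero (p := p) hN hne
    exact hφ (DFunLike.congr_fun h (Dual.mk _ N φ))
  refine ⟨Equiv.ofBijective ev ((Nat.bijective_iff_injective_and_card ev).mpr ⟨hinj, ?_⟩),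
    fun n f => rfl⟩
  rw [card_homZMod (A := Dual ψ N) (dual_killed _ N), ← card_homZMod hN]
  rfl

omit hp hn in
/-- On a module trivial on the smaller subgroup a cocycle commutes with conjugation there. -/
private lemma cocycle_conj (hV : TrivG W V N) {c : W → N}
    (hc : c ∈ (L.comap W.subtype).Z1 ⊤ N) (w u : W) (hu : (u : Γ) ∈ V) :
    c (w * u * w⁻¹) = w • c u := by
  have hinv : w • c w⁻¹ + c w = 0 := by
    rw [← Levels.Z1_apply_mul hc (Subgroup.mem_top _) (Subgroup.mem_top _), mul_inv_cancel,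
      Levels.Z1_apply_one hc]
  rw [Levels.Z1_apply_mul hc (Subgroup.mem_top _) (Subgroup.mem_top _),
    Levels.Z1_apply_mul hc (Subgroup.mem_top _) (Subgroup.mem_top _), mul_smul, hV u hu]
  calc w • c w⁻¹ + (w • c u + c w) = w • c u + (w • c w⁻¹ + c w) := by abel
    _ = w • c u := by rw [hinv, add_zero]

/-- A continuous equivariant homomorphism on the smaller subgroup is, up to the index, the
restriction of a cocycle of the larger one. -/
private lemma exists_transfer [Fintype (QG W V)] (hV : TrivG W V N) (c₀ : Γ → N)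
    (hmul : ∀ g ∈ V ⊓ W, ∀ h ∈ V ⊓ W, c₀ (g * h) = c₀ g + c₀ h)
    (hconj : ∀ (w : W), ∀ g ∈ V ⊓ W, c₀ ((w : Γ) * g * (w : Γ)⁻¹) = w • c₀ g)
    {U : Subgroup Γ} (hU : U ∈ L) (hUn : U.Normal) (hUle : U ≤ V ⊓ W) (hc₀ : ∀ s ∈ U, c₀ s = 0) :
    ∃ c ∈ (L.comap W.subtype).Z1 ⊤ N,
      ∀ u : W, (u : Γ) ∈ V → c u = Fintype.card (QG W V) • c₀ (u : Γ) := by
  let out : QG W V → W := Quotient.out
  have hout : ∀ x, qg W V (out x) = x := QuotientGroup.out_eq'
  let hh : W → QG W V → W := fun w x => (out (qg W V w * x))⁻¹ * w * out x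
  have hmem : ∀ w x, ((hh w x : W) : Γ) ∈ V ⊓ W := fun w x => by
    have h1 : qg W V (hh w x) = 1 := by
      simp only [hh, map_mul, map_inv, hout]
      group
    exact ⟨Subgroup.mem_subgroupOf.mp
      ((QuotientGroup.eq_one_iff (N := V.subgroupOf W) (hh w x)).mp h1), (hh w x).2⟩
  refine ⟨fun w => ∑ x, out (qg W V w * x) • c₀ (hh w x : Γ),
    ⟨⟨U.comap W.subtype, L.comap_mem _ hU, fun w _ s hs => ?_⟩, fun u _ w _ => ?_⟩, fun u hu => ?_⟩
  · have hs1 : qg W V s = 1 := (QuotientGroup.eq_one_iff _).mpr (hUle hs.2).1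
    refine Finset.sum_congr rfl fun y _ => ?_
    have e : hh (w * s) y = hh w y * ((out y)⁻¹ * s * out y) := by
      simp only [hh, map_mul, hs1, mul_one]; group
    have hm : (((out y)⁻¹ * s * out y : W) : Γ) ∈ U := by
      simpa using hUn.conj_mem (s : Γ) hs.2 ((out y : W) : Γ)⁻¹
    rw [e, Subgroup.coe_mul, hmul _ (hmem w y) _ (hUle hm), hc₀ _ hm, add_zero, map_mul, hs1,
      mul_one]
  · simp only [d1]
    rw [Finset.smul_sum]
    have e : ∀ y, out (qg W V (u * w) * y) • c₀ (hh (u * w) y : Γ) =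
        out (qg W V u * (qg W V w * y)) • c₀ (hh u (qg W V w * y) : Γ) +
          u • out (qg W V w * y) • c₀ (hh w y : Γ) := fun y => by
      have e1 : hh (u * w) y = hh u (qg W V w * y) * hh w y := by
        simp only [hh, map_mul, mul_assoc]; group
      rw [e1, Subgroup.coe_mul, hmul _ (hmem _ _) _ (hmem _ _), smul_add, map_mul, mul_assoc]
      congr 1
      rw [← mul_smul]
      exact trivG_congr hV (by rw [map_mul, hout, hout]) _
    rw [Finset.sum_congr rfl fun y _ => e y, Finset.sum_add_distrib,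
      Fintype.sum_equiv (Equiv.mulLeft (qg W V w))
        (fun y => out (qg W V u * (qg W V w * y)) • c₀ (hh u (qg W V w * y) : Γ))
        (fun y => out (qg W V u * y) • c₀ (hh u y : Γ)) fun y => rfl]
    abel
  · rw [← Finset.card_univ, ← Finset.sum_const]
    refine Finset.sum_congr rfl fun y _ => ?_
    have h1 : qg W V u = 1 := (QuotientGroup.eq_one_iff _).mpr hu
    have e : (hh u y : Γ) = ((out y)⁻¹ : W) * (u : Γ) * (((out y)⁻¹ : W) : Γ)⁻¹ := by
      simp only [hh, Subgroup.coe_mul, Subgroup.coe_inv, h1, one_mul, inv_inv]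
    rw [e, h1, one_mul, hconj _ _ ⟨hu, u.2⟩, smul_inv_smul]

namespace KummerPairing

variable {M : Type} [AddCommGroup M] [DistribMulAction (QG W V) M] (P : KummerPairing L W V χ M)
include P

private lemma pair_zero {g : Γ} (hg : g ∈ V ⊓ W) : P.pair 0 g = 0 := by
  have := P.add 0 0 g hg
  rw [add_zero] at this
  exact right_eq_add.mp this

/-- The pairing only depends on the class modulo `p`. -/
private lemma pair_eq {x y : M} (h : toModp p M x = toModp p M y) {g : Γ} (hg : g ∈ V ⊓ W) :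
    P.pair x g = P.pair y g := by
  obtain ⟨z, hz⟩ := (toModp_eq_zero_iff p M).mp (show toModp p M (x - y) = 0 by
    rw [map_sub, h, sub_self])
  rw [show x = p • z + y by rw [hz, sub_add_cancel], P.add _ _ g hg, P.nsmul z g hg, zero_add]

/-- The pairing determines the class modulo `p`. -/
private lemma toModp_eq {x y : M} (h : ∀ g ∈ V ⊓ W, P.pair x g = P.pair y g) :
    toModp p M x = toModp p M y := by
  rw [← sub_eq_zero, ← map_sub, toModp_eq_zero_iff]
  refine P.left_inj _ fun g hg => ?_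
  have h1 := P.add (x - y) y g hg
  rw [sub_add_cancel, h g hg] at h1
  exact right_eq_add.mp h1

/-- A cocycle and a dual element give a continuous character, hence an element of the module. -/
private lemma exists_rel (hV : TrivG W V N) (c : ↥((L.comap W.subtype).Z1 ⊤ N))
    (f : Dual (χ.comp W.subtype) N) :
    ∃ x, ∀ g (hg : g ∈ V ⊓ W), P.pair x g = Dual.hom _ N f (c.1 ⟨g, hg.2⟩) := by
  obtain ⟨U₀, ⟨U, hU, hle, -⟩, hcU⟩ := c.2.1
  obtain ⟨x, hx⟩ := P.exists_eq
    (fun g => if h : g ∈ V ⊓ W then Dual.hom _ N f (c.1 ⟨g, h.2⟩) else 0)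
    (fun g hg h hh => by
      simp only [dif_pos hg, dif_pos hh, dif_pos (mul_mem hg hh)]
      rw [show (⟨g * h, (mul_mem hg hh : g * h ∈ V ⊓ W).2⟩ : W) = ⟨g, hg.2⟩ * ⟨h, hh.2⟩ from rfl,
        Levels.Z1_apply_mul c.2 (Subgroup.mem_top _) (Subgroup.mem_top _), hV _ hg.1, map_add,
        add_comm])
    ⟨U, hU, fun g hg s hs hs' => by
      simp only [dif_pos hg, dif_pos (mul_mem hg hs')]
      exact congrArg (Dual.hom _ N f)
        (hcU ⟨g, hg.2⟩ trivial ⟨s, hs'.2⟩ ⟨trivial, hle hs⟩)⟩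
  exact ⟨x, fun g hg => (hx g hg).trans (dif_pos hg)⟩

/-- The class of an element of the module pairing like a cocycle composed with a dual element. -/
private def classOf (hV : TrivG W V N) (c : ↥((L.comap W.subtype).Z1 ⊤ N))
    (f : Dual (χ.comp W.subtype) N) : Modp p M :=
  toModp p M (P.exists_rel hV c f).choose

private lemma classOf_eq (hV : TrivG W V N) {c : ↥((L.comap W.subtype).Z1 ⊤ N)}
    {f : Dual (χ.comp W.subtype) N} {x : M}
    (hx : ∀ g (hg : g ∈ V ⊓ W), P.pair x g = Dual.hom _ N f (c.1 ⟨g, hg.2⟩)) :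
    P.classOf hV c f = toModp p M x :=
  P.toModp_eq fun g hg => ((P.exists_rel hV c f).choose_spec g hg).trans (hx g hg).symm

/-- The class commutes with the action. -/
private lemma classOf_smul (hV : TrivG W V N) (c : ↥((L.comap W.subtype).Z1 ⊤ N)) (w : W)
    (f : Dual (χ.comp W.subtype) N) :
    qg W V w • P.classOf hV c (w⁻¹ • f) = P.classOf hV c f := by
  rw [classOf, smul_toModp]
  refine (P.classOf_eq hV fun g hg => ?_).symm
  have hg' := conj_mem_inter' W V w hg
  rw [P.equivariant w _ g hg, (P.exists_rel hV c (w⁻¹ • f)).choose_spec _ hg']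
  show (χ (w : Γ) : ZMod p) * ((χ ((w⁻¹ : W) : Γ) : ZMod p) *
    Dual.hom _ N f ((w⁻¹)⁻¹ • c.1 ⟨_, hg'.2⟩)) = _
  rw [Subgroup.coe_inv, map_inv, ← mul_assoc, Units.mul_inv, one_mul, inv_inv,
    ← cocycle_conj hV c.2 w _ hg'.1]
  exact congrArg (fun u => Dual.hom _ N f (c.1 u)) (Subtype.ext (by simp [mul_assoc]))

/-- The equivariant map into the module modulo `p` attached to a cocycle. -/
private def toHom (hV : TrivG W V N) (hVχ : V ≤ χ.ker) :
    letI := quoActG (Dual (χ.comp W.subtype) N) (trivG_dual hVχ hV)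
    ↥((L.comap W.subtype).Z1 ⊤ N) →+
      h0Sub (QG W V) (HomTw (MonoidHom.id (QG W V)) (Dual (χ.comp W.subtype) N) (Modp p M)) :=
  letI := quoActG (Dual (χ.comp W.subtype) N) (trivG_dual hVχ hV)
  AddMonoidHom.mk'
    (fun c => ⟨HomTw.mk _ _ _ (AddMonoidHom.mk' (P.classOf hV c) fun f f' => by
      refine (P.classOf_eq hV fun g hg => ?_).trans (map_add (toModp p M) _ _)
      rw [P.add _ _ g hg, (P.exists_rel hV c f).choose_spec g hg,
        (P.exists_rel hV c f').choose_spec g hg, map_add]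
      rfl), fun γ => AddMonoidHom.ext fun f => by
      obtain ⟨w, rfl⟩ := QuotientGroup.mk'_surjective (V.subgroupOf W) γ
      show qg W V w • P.classOf hV c ((qg W V w)⁻¹ • f) = P.classOf hV c f
      rw [← map_inv, quoActG_smul (trivG_dual hVχ hV)]
      exact P.classOf_smul hV c w f⟩)
    fun c d => Subtype.ext (AddMonoidHom.ext fun f => by
      show P.classOf hV (c + d) f = P.classOf hV c f + P.classOf hV d f
      refine (P.classOf_eq hV fun g hg => ?_).trans (map_add (toModp p M) _ _)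
      rw [P.add _ _ g hg, (P.exists_rel hV c f).choose_spec g hg,
        (P.exists_rel hV d f).choose_spec g hg, ← map_add]
      rfl)

/-- The kernel consists of the coboundaries. -/
private lemma toHom_eq_zero_iff [Fintype (QG W V)] (hV : TrivG W V N) (hVχ : V ≤ χ.ker)
    (hcop : ¬ p ∣ Fintype.card (QG W V)) (hN : ∀ n : N, p • n = 0)
    (c : ↥((L.comap W.subtype).Z1 ⊤ N)) :
    P.toHom hV hVχ c = 0 ↔ c.1 ∈ Levels.B1 (⊤ : Subgroup W) N := by
  constructor
  · intro h
    refine mem_B1_of_zero_onG hcop hN c.2 fun v hv => ?_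
    by_contra hne
    obtain ⟨φ, hφ⟩ := Global.exists_hom_ne_zero (p := p) hN hne
    have h1 : P.classOf hV c (Dual.mk _ N φ) = toModp p M 0 :=
      (DFunLike.congr_fun (F := Dual (χ.comp W.subtype) N →+ Modp p M) (congrArg Subtype.val h)
        (Dual.mk _ N φ)).trans (map_zero _).symm
    have h2 := P.pair_eq h1 (g := (v : Γ)) ⟨hv, v.2⟩
    rw [(P.exists_rel hV c _).choose_spec _ ⟨hv, v.2⟩, P.pair_zero ⟨hv, v.2⟩] at h2
    exact hφ h2
  · rintro ⟨n, hn0⟩
    refine Subtype.ext (AddMonoidHom.ext fun f => ?_)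
    show P.classOf hV c f = 0
    rw [P.classOf_eq hV (x := 0) fun g hg => ?_, map_zero]
    rw [hn0 _ trivial, d0, hV _ hg.1, sub_self, map_zero, P.pair_zero hg]

/-- An equivariant map gives an equivariant homomorphism on the smaller subgroup with the same
pairing, vanishing on a level. -/
private lemma exists_hom_of_fixed [Finite N] (hVχ : V ≤ χ.ker) (hV : TrivG W V N)
    (hN : ∀ n : N, p • n = 0) (hVW : V ⊓ W ∈ L)
    (φ : letI := quoActG (Dual (χ.comp W.subtype) N) (trivG_dual hVχ hV)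
      h0Sub (QG W V) (HomTw (MonoidHom.id (QG W V)) (Dual (χ.comp W.subtype) N) (Modp p M))) :
    ∃ (c₀ : Γ → N) (x : Dual (χ.comp W.subtype) N → M),
      (∀ f, toModp p M (x f) = HomTw.hom _ _ _ φ.1 f) ∧
      (∀ g ∈ V ⊓ W, ∀ f, Dual.hom _ N f (c₀ g) = P.pair (x f) g) ∧
      (∀ g ∈ V ⊓ W, ∀ h ∈ V ⊓ W, c₀ (g * h) = c₀ g + c₀ h) ∧
      (∀ (w : W), ∀ g ∈ V ⊓ W, c₀ ((w : Γ) * g * (w : Γ)⁻¹) = w • c₀ g) ∧
      ∃ U ∈ L, U.Normal ∧ U ≤ V ⊓ W ∧ ∀ s ∈ U, c₀ s = 0 := by
  let := quoActG (Dual (χ.comp W.subtype) N) (trivG_dual hVχ hV)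
  have : NeZero p := ⟨hp.out.ne_zero⟩
  have : Finite (Dual (χ.comp W.subtype) N) := DFunLike.finite (N →+ ZMod p)
  let : Fintype (Dual (χ.comp W.subtype) N) := Fintype.ofFinite _
  choose x hx using fun f => toModp_surjective p M (HomTw.hom _ _ _ φ.1 f)
  obtain ⟨e, he⟩ := bijective_bidual hN (χ.comp W.subtype)
  let c₀ : Γ → N := fun g => if hg : g ∈ V ⊓ W then
    e.symm (AddMonoidHom.mk' (fun f => P.pair (x f) g) fun f f' => by
      rw [← P.add _ _ g hg]
      exact P.pair_eq (by rw [map_add, hx, hx, hx, map_add]) hg) else 0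
  have hc₀ : ∀ g ∈ V ⊓ W, ∀ f, Dual.hom _ N f (c₀ g) = P.pair (x f) g := fun g hg f => by
    simp only [c₀, dif_pos hg]
    rw [← he, e.apply_symm_apply]
    rfl
  have hsep : ∀ a b : N, (∀ f : Dual (χ.comp W.subtype) N, Dual.hom _ N f a = Dual.hom _ N f b) →
      a = b := fun a b h => e.injective (AddMonoidHom.ext fun f => by rw [he, he, h f])
  refine ⟨c₀, x, hx, hc₀, fun g hg h hh => hsep _ _ fun f => ?_,
    fun w g hg => hsep _ _ fun f => ?_, ?_⟩
  · rw [map_add, hc₀ _ (mul_mem hg hh), hc₀ g hg, hc₀ h hh]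
    exact P.map_mul _ g hg h hh
  · have hwg := conj_mem_inter W V w hg
    rw [hc₀ _ hwg]
    have h2 : HomTw.hom _ _ _ φ.1 f = qg W V w • HomTw.hom _ _ _ φ.1 ((qg W V w)⁻¹ • f) :=
      (DFunLike.congr_fun (F := Dual (χ.comp W.subtype) N →+ Modp p M) (φ.2 (qg W V w)) f).symm
    rw [← map_inv, quoActG_smul (trivG_dual hVχ hV), ← hx, ← hx, smul_toModp] at h2
    rw [P.pair_eq h2 hwg, P.equivariant w _ _ hwg,
      show (w : Γ)⁻¹ * ((w : Γ) * g * (w : Γ)⁻¹) * (w : Γ) = g by group, ← hc₀ g hg]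
    show (χ (w : Γ) : ZMod p) * ((χ ((w⁻¹ : W) : Γ) : ZMod p) *
      Dual.hom _ N f ((w⁻¹)⁻¹ • c₀ g)) = _
    rw [Subgroup.coe_inv, map_inv, ← mul_assoc, Units.mul_inv, one_mul, inv_inv]
  · choose lev hlev hlev' using fun f => P.continuous (x f)
    obtain ⟨U, hU, hUn, hUle⟩ := L.exists_normal
      (L.inf_mem hVW (L.finset_inf_mem Finset.univ lev fun f _ => hlev f))
    refine ⟨U, hU, hUn, fun s hs => (hUle hs).1, fun s hs => hsep _ _ fun f => ?_⟩
    rw [hc₀ s (hUle hs).1, map_zero]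
    exact hlev' f s (SetLike.le_def.mp (Finset.inf_le (f := lev) (Finset.mem_univ f)) (hUle hs).2)
      (hUle hs).1

/-- Every equivariant map comes from a cocycle. -/
private lemma toHom_surjective [Finite N] [Fintype (QG W V)] (hV : TrivG W V N) (hVχ : V ≤ χ.ker)
    (hcop : ¬ p ∣ Fintype.card (QG W V)) (hN : ∀ n : N, p • n = 0) (hVW : V ⊓ W ∈ L) :
    Function.Surjective (P.toHom hV hVχ) := fun φ => by
  have : NeZero p := ⟨hp.out.ne_zero⟩
  obtain ⟨c₀, x, hx, hc₀, hmul, hconj, U, hU, hUn, hUle, h0⟩ :=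
    P.exists_hom_of_fixed hVχ hV hN hVW φ
  obtain ⟨c, hc, hcc₀⟩ := exists_transfer hV c₀ hmul hconj hU hUn hUle h0
  let : Module (ZMod p) N := AddCommGroup.zmodModule hN
  have hcard : (Fintype.card (QG W V) : ZMod p) ≠ 0 := by
    rwa [Ne, ZMod.natCast_eq_zero_iff]
  set a : ℕ := ((Fintype.card (QG W V) : ZMod p)⁻¹).val
  refine ⟨a • ⟨c, hc⟩, Subtype.ext (AddMonoidHom.ext fun f => ?_)⟩
  refine (P.classOf_eq hV fun g hg => ?_).trans (hx f)
  show P.pair (x f) g = Dual.hom _ N f (a • c ⟨g, hg.2⟩)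
  rw [hcc₀ ⟨g, hg.2⟩ hg.1, ← mul_smul, ← Nat.cast_smul_eq_nsmul (ZMod p), Nat.cast_mul,
    ZMod.natCast_zmod_val, inv_mul_cancel₀ hcard, one_smul, hc₀ g hg]

/-- The first cohomology has the size of equivariant maps into the module modulo `p`. -/
theorem ldim_H1_eq [Finite N] [Fintype (QG W V)] (hcop : ¬ p ∣ Fintype.card (QG W V))
    (hVW : V ⊓ W ∈ L) (hVχ : V ≤ χ.ker) (hV : TrivG W V N) (hN : ∀ n : N, p • n = 0) :
    letI := quoActG (Dual (χ.comp W.subtype) N) (trivG_dual hVχ hV)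
    ldim p (H1 (L.comap W.subtype) N) =
      ldim p (h0Sub (QG W V) (HomTw (MonoidHom.id (QG W V)) (Dual (χ.comp W.subtype) N)
        (Modp p M))) := by
  let := quoActG (Dual (χ.comp W.subtype) N) (trivG_dual hVχ hV)
  let Ψ : H1 (L.comap W.subtype) N →+
      h0Sub (QG W V) (HomTw (MonoidHom.id (QG W V)) (Dual (χ.comp W.subtype) N) (Modp p M)) :=
    QuotientAddGroup.lift _ (P.toHom hV hVχ) fun c hc =>
      (P.toHom_eq_zero_iff hV hVχ hcop hN c).mpr hc
  refine ldim_congr p (AddEquiv.ofBijective Ψ ⟨(injective_iff_map_eq_zero Ψ).mpr fun z hz => ?_,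
    fun φ => ?_⟩).toEquiv
  · obtain ⟨c, rfl⟩ := cls1_surjective z
    exact cls1_eq_zero_iff.mpr ((P.toHom_eq_zero_iff hV hVχ hcop hN c).mp hz)
  · obtain ⟨c, hc⟩ := P.toHom_surjective hV hVχ hcop hN hVW φ
    exact ⟨cls1 _ N c, hc⟩

end KummerPairing

end FermatAgent.CFT.LocalEuler
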