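import Fermat.Agent.CFT.LocalEuler.KummerH1
import Fermat.Agent.CFT.Euler.Phi
import Fermat.Agent.CFT.Euler.Average
import Mathlib.FieldTheory.Galois.NormalBasis

/-!
The additive group of the field of a layer at the residue characteristic: the invariant of a ball
modulo the prime.
-/

set_option autoImplicit false
set_option maxSynthPendingDepth 3

noncomputable section

open scoped Classical

namespace FermatAgent.CFT.LocalEuler

open Coh Euler Euler.AddInv Local IntermediateField

variable {q : ℕ} [hq : Fact q.Prime] {p : ℕ} [hp : Fact p.Prime] {χ : Gal' q →* (ZMod p)ˣ}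

variable (W V : Subgroup (Gal' q)) [hn : (V.subgroupOf W).Normal]

/-- The fixed elements as a subgroup. -/
def fixAdd (H : Subgroup (Gal' q)) : AddSubgroup (PadicAlgCl q) where
  carrier := {x | ∀ g ∈ H, g x = x}
  zero_mem' g _ := map_zero g
  add_mem' {a b} ha hb g hg := by rw [map_add, ha g hg, hb g hg]
  neg_mem' {a} ha g hg := by rw [map_neg, ha g hg]

/-- The additive group of the field of the sublevel. -/
def FAd (W V : Subgroup (Gal' q)) : Type := ↥(fixAdd (V ⊓ W : Subgroup (Gal' q)))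

instance : AddCommGroup (FAd W V) :=
  inferInstanceAs (AddCommGroup ↥(fixAdd (V ⊓ W : Subgroup (Gal' q))))

/-- The underlying element. -/
def FAd.val : FAd W V →+ PadicAlgCl q := (fixAdd (V ⊓ W)).subtype

section
omit hn

/-- The value map of fixed elements is injective. -/
lemma FAd.val_injective : Function.Injective (FAd.val W V) := Subtype.val_injective

/-- Values of fixed elements are fixed. -/
lemma FAd.val_mem (x : FAd W V) : FAd.val W V x ∈ fixAdd (V ⊓ W) := x.2

/-- From an element. -/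
def FAd.mk (a : PadicAlgCl q) (ha : a ∈ fixAdd (V ⊓ W)) : FAd W V := ⟨a, ha⟩

/-- The value of a fixed element. -/
@[simp] lemma FAd.val_mk (a : PadicAlgCl q) (ha : a ∈ fixAdd (V ⊓ W)) :
    FAd.val W V (FAd.mk W V a ha) = a := rfl

end

/-- The action of an element. -/
def FAd.act (w : W) : FAd W V →+ FAd W V :=
  AddMonoidHom.mk' (fun x => ⟨(w : Gal' q) x.1, fun v hv => by
    have h := x.2 _ (conj_mem_inter' W V w hv)
    conv_rhs => rw [← h]
    rw [← AlgEquiv.mul_apply, ← AlgEquiv.mul_apply, mul_assoc, mul_inv_cancel_left]⟩) fun x y =>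
      Subtype.ext (map_add (w : Gal' q) x.1 y.1)

instance : DistribMulAction (QG W V) (FAd W V) :=
  quoLift (FAd.act W V) (fun _ => Subtype.ext rfl) (fun _ _ _ => Subtype.ext rfl)
    fun v hv x => Subtype.ext (x.2 _ ⟨hv, v.2⟩)

/-- The value map is equivariant. -/
lemma FAd.val_smul (w : W) (x : FAd W V) :
    FAd.val W V (qg W V w • x) = (w : Gal' q) (FAd.val W V x) := rfl

/-- The elements of absolute value at most `r`. -/
def ballS (r : ℝ) (hr : 0 ≤ r) : Stable (QG W V) (FAd W V) where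
  sub :=
    { carrier := {x | ‖FAd.val W V x‖ ≤ r}
      zero_mem' := by show ‖FAd.val W V 0‖ ≤ r; rwa [map_zero, norm_zero]
      add_mem' := fun {a b} ha hb => by
        show ‖FAd.val W V (a + b)‖ ≤ r
        rw [map_add]; exact (IsUltrametricDist.norm_add_le_max _ _).trans (max_le ha hb)
      neg_mem' := fun {a} ha => by
        show ‖FAd.val W V (-a)‖ ≤ r
        rwa [map_neg, norm_neg] }
  smul_mem g x hx := by
    obtain ⟨w, rfl⟩ := QuotientGroup.mk'_surjective (V.subgroupOf W) g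
    show ‖FAd.val W V (qg W V w • x)‖ ≤ r
    rw [FAd.val_smul, norm_apply]
    exact hx

variable {W V}

/-- Membership in a ball. -/
lemma mem_ballS {r : ℝ} {hr : 0 ≤ r} {x : FAd W V} :
    x ∈ (ballS W V r hr).sub ↔ ‖FAd.val W V x‖ ≤ r := Iff.rfl

lemma torStable_eq_bot (X : Stable (QG W V) (FAd W V)) : Subsingleton (torStable p X).Mod :=
  ⟨fun a b => by
    suffices h : ∀ c : (torStable p X).Mod, c = 0 by rw [h a, h b]
    intro c
    refine Subtype.ext (FAd.val_injective W V ?_)
    have h1 : p • FAd.val W V c.1 = 0 := by rw [← map_nsmul, show p • c.1 = 0 from c.2.2, map_zero]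
    rw [nsmul_eq_mul, mul_eq_zero] at h1
    exact (h1.resolve_left (Nat.cast_ne_zero.mpr hp.out.ne_zero)).trans (map_zero _).symm⟩

omit hp in
/-- A normal basis over the field of the level gives a basis permuted by the quotient. -/
lemma exists_permuted_basis (hVW : V ≤ W) (hV : V ∈ LL q) [Fintype (QG W V)] :
    ∃ b : Fin W.index × QG W V → FAd W V,
      (∀ (g : QG W V) i x, g • b (i, x) = b (i, g * x)) ∧
      LinearIndependent ℚ_[q] (fun z => FAd.val W V (b z)) ∧
      ∀ F : IntermediateField ℚ_[q] (PadicAlgCl q), F.fixingSubgroup = V →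
        Module.finrank ℚ_[q] F = W.index * Fintype.card (QG W V) := by
  have hW : W ∈ LL q := (LL q).mem_of_le hV hVW
  have := finiteDimensional_fixedField hV
  have := finiteDimensional_fixedField hW
  set E := fixedField W
  set F := fixedField V
  have hE : E.fixingSubgroup = W := fixingSubgroup_fixedField_of_mem hW
  have hF : F.fixingSubgroup = V := fixingSubgroup_fixedField_of_mem hV
  have hEF : E ≤ F := IntermediateField.fixedField_le hVW
  set F' := IntermediateField.extendScalars hEF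
  have : FiniteDimensional E F' := by
    have : FiniteDimensional ℚ_[q] F' := ‹FiniteDimensional ℚ_[q] F›
    exact Module.Finite.of_restrictScalars_finite ℚ_[q] E F'
  have hwF : ∀ (w : W) (y : F'), (w : Gal' q) y.1 ∈ F' := fun w y => by
    rw [IntermediateField.mem_extendScalars]
    show ∀ v : V, (v : Gal' q) ((w : Gal' q) y.1) = (w : Gal' q) y.1
    intro v
    have hy : ∀ v : V, (v : Gal' q) y.1 = y.1 := (IntermediateField.mem_extendScalars hEF).mp y.2
    have hm := conj_mem_inter' W V w (v := (v : Gal' q)) ⟨v.2, hVW v.2⟩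
    have h2 : ((w : Gal' q)⁻¹ * (v : Gal' q) * (w : Gal' q)) y.1 = y.1 := hy ⟨_, hm.1⟩
    conv_rhs => rw [← h2]
    rw [← AlgEquiv.mul_apply, ← AlgEquiv.mul_apply, mul_assoc, mul_inv_cancel_left]
  have hwE : ∀ (w : W) (e : E), (w : Gal' q) (e : PadicAlgCl q) = (e : PadicAlgCl q) := fun w e =>
    e.2 w
  let σh : W → (F' →ₐ[E] F') := fun w =>
    { toFun := fun y => ⟨(w : Gal' q) y.1, hwF w y⟩
      map_one' := Subtype.ext (map_one (w : Gal' q))
      map_mul' := fun a b => Subtype.ext (map_mul (w : Gal' q) a.1 b.1)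
      map_zero' := Subtype.ext (map_zero (w : Gal' q))
      map_add' := fun a b => Subtype.ext (map_add (w : Gal' q) a.1 b.1)
      commutes' := fun e => Subtype.ext (hwE w e) }
  let σ : QG W V → (F' ≃ₐ[E] F') := fun x =>
    AlgEquiv.ofBijective (σh x.out) (AlgHom.bijective (σh x.out))
  have hσ : Function.Injective σ := fun x x' h => by
    rw [← QuotientGroup.out_eq' x, ← QuotientGroup.out_eq' x', QuotientGroup.eq]
    show ((x.out⁻¹ * x'.out : W) : Gal' q) ∈ V
    refine hF.le ((IntermediateField.mem_fixingSubgroup_iff F _).mpr fun y hy => ?_)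
    have h1 := congrArg Subtype.val
      (AlgEquiv.congr_fun h ⟨y, (IntermediateField.mem_extendScalars hEF).mpr hy⟩)
    change (x.out : Gal' q) y = (x'.out : Gal' q) y at h1
    show ((x.out : Gal' q)⁻¹ * (x'.out : Gal' q)) y = y
    rw [AlgEquiv.mul_apply, ← h1, ← AlgEquiv.mul_apply, inv_mul_cancel, AlgEquiv.one_apply]
  obtain ⟨α, hα⟩ := exists_linearIndependent_algEquiv_apply E F'
  have hli : LinearIndependent E (fun x : QG W V => ((σ x α : F') : PadicAlgCl q)) :=
    (hα.comp σ hσ).map' F'.val.toLinearMap (LinearMap.ker_eq_bot.mpr F'.val.injective)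
  have hdim : Module.finrank ℚ_[q] E = W.index := by
    rw [IntermediateField.finrank_eq_fixingSubgroup_index (L := E), hE]
  set e := Module.finBasisOfFinrankEq ℚ_[q] E hdim
  have hli2 : LinearIndependent ℚ_[q]
      (fun z : Fin W.index × QG W V => e z.1 • ((σ z.2 α : F') : PadicAlgCl q)) :=
    Fintype.linearIndependent_iff.mpr fun g hg z => by
      have h0 : ∑ x : QG W V, (∑ i, g (i, x) • e i) • ((σ x α : F') : PadicAlgCl q) = 0 := by
        rw [← hg, Fintype.sum_prod_type, Finset.sum_comm]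
        refine Finset.sum_congr rfl fun x _ => ?_
        rw [Finset.sum_smul]
        exact Finset.sum_congr rfl fun i _ => smul_assoc _ _ _
      have h1 := Fintype.linearIndependent_iff.mp hli _ h0 z.2
      exact Fintype.linearIndependent_iff.mp e.linearIndependent _ h1 z.1
  have hmem : ∀ z : Fin W.index × QG W V,
      e z.1 • ((σ z.2 α : F') : PadicAlgCl q) ∈ fixAdd (V ⊓ W) := fun z g hg => by
    have h1 : g ((σ z.2 α : F') : PadicAlgCl q) = (σ z.2 α : F') :=
      (IntermediateField.mem_extendScalars hEF).mp (σ z.2 α).2 ⟨g, hg.1⟩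
    show g ((e z.1 : PadicAlgCl q) * _) = (e z.1 : PadicAlgCl q) * _
    rw [map_mul, hwE ⟨g, hg.2⟩ (e z.1), h1]
  refine ⟨fun z => FAd.mk W V _ (hmem z), fun g i x => ?_, ?_, fun F₁ hF₁ => ?_⟩
  · obtain ⟨w, rfl⟩ := QuotientGroup.mk'_surjective (V.subgroupOf W) g
    refine FAd.val_injective W V ?_
    rw [FAd.val_smul, FAd.val_mk, FAd.val_mk]
    show (w : Gal' q) ((e i : PadicAlgCl q) * (x.out : Gal' q) (α : PadicAlgCl q)) =
      (e i : PadicAlgCl q) * ((qg W V w * x).out : Gal' q) (α : PadicAlgCl q)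
    rw [map_mul, hwE w (e i), ← AlgEquiv.mul_apply]
    congr 1
    have hm : ((qg W V w * x).out)⁻¹ * (w * x.out) ∈ V.subgroupOf W := by
      rw [← QuotientGroup.eq, QuotientGroup.out_eq']
      show _ = qg W V (w * x.out)
      rw [map_mul, show qg W V x.out = x from QuotientGroup.out_eq' x]
    have hα1 : ∀ v : V, (v : Gal' q) (α : PadicAlgCl q) = (α : PadicAlgCl q) :=
      (IntermediateField.mem_extendScalars hEF).mp α.2
    conv_rhs => rw [← hα1 ⟨_, hm⟩, ← AlgEquiv.mul_apply]
    simp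
  · exact hli2
  · rw [IntermediateField.finrank_eq_fixingSubgroup_index (L := F₁), hF₁]
    rw [← Subgroup.relIndex_mul_index hVW, mul_comm]
    congr 1
    rw [← Nat.card_eq_fintype_card]
    rfl

variable {A : Type} [AddCommGroup A] [Finite A]

/-- A power of the prime makes a bound as small as needed. -/
private lemma exists_pow_mul_le {S r : ℝ} (hS : 0 ≤ S) (hr : 0 < r) :
    ∃ N : ℕ, S * ‖((p : ℚ_[p]) ^ N)‖ ≤ r := by
  rcases hS.eq_or_lt with h | h
  · exact ⟨0, by rw [← h, zero_mul]; exact hr.le⟩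
  obtain ⟨N, hN⟩ := exists_pow_lt_of_lt_one (div_pos hr h) (Padic.norm_p_lt_one (p := p))
  refine ⟨N, ?_⟩
  rw [norm_pow]
  exact ((lt_div_iff₀' h).mp hN).le

/-- The action on the indices of a permuted basis. -/
@[reducible] private def indexAction (n : ℕ) : MulAction (QG W V) (Fin n × QG W V) where
  smul g z := (z.1, g * z.2)
  one_smul z := Prod.ext rfl (one_mul z.2)
  mul_smul g h z := Prod.ext rfl (mul_assoc g h z.2)

attribute [local instance] indexAction

section Lattice

variable {W V : Subgroup (Gal' p)} [(V.subgroupOf W).Normal]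

/-- A lattice with permuted basis containing the ball and nearly contained in it. -/
private lemma exists_lattice (hVW : V ≤ W) (hV : V ∈ LL p) [Fintype (QG W V)] {r : ℝ}
    (hr : 0 < r) :
    ∃ (ψ : (Fin W.index × QG W V → ℤ_[p]) →+ FAd W V) (M : ℕ), Function.Injective ψ ∧
      (∀ (g : QG W V) v, g • ψ v = ψ fun z => v (z.1, g⁻¹ * z.2)) ∧
      (ballS W V r hr.le).sub ≤ ψ.range ∧ ∀ v, p ^ M • ψ v ∈ (ballS W V r hr.le).sub := by
  obtain ⟨b, hb, hli, hdim⟩ := exists_permuted_basis hVW hV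
  have := finiteDimensional_fixedField hV
  set F := fixedField V
  have hF : F.fixingSubgroup = V := fixingSubgroup_fixedField_of_mem hV
  have hmemF : ∀ x : FAd W V, FAd.val W V x ∈ F := fun x v => FAd.val_mem W V x _ ⟨v.2, hVW v.2⟩
  let bF : Fin W.index × QG W V → F := fun z => ⟨_, hmemF (b z)⟩
  have hliF : LinearIndependent ℚ_[p] bF := LinearIndependent.of_comp F.val.toLinearMap hli
  have hcard : Fintype.card (Fin W.index × QG W V) = Module.finrank ℚ_[p] F := by
    rw [Fintype.card_prod, Fintype.card_fin, hdim F hF]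
  have : Nonempty (Fin W.index × QG W V) := by
    rw [← Fintype.card_pos_iff, hcard]; exact Module.finrank_pos
  let B := basisOfLinearIndependentOfCardEqFinrank hliF hcard
  have hB : ∀ z, (B z : PadicAlgCl p) = FAd.val W V (b z) := fun z => by
    simp only [B, coe_basisOfLinearIndependentOfCardEqFinrank]; rfl
  -- a bound for the coordinates
  let κ := LinearMap.toContinuousLinearMap B.equivFun.toLinearMap
  obtain ⟨N, hN⟩ := exists_pow_mul_le (p := p) (mul_nonneg (norm_nonneg κ) hr.le) one_pos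
  set c : ℚ_[p] := (p : ℚ_[p]) ^ N
  have hc : c ≠ 0 := pow_ne_zero _ (Nat.cast_ne_zero.mpr hp.out.ne_zero)
  let ψF : (Fin W.index × QG W V → ℤ_[p]) →+ F := AddMonoidHom.mk'
    (fun v => c⁻¹ • B.equivFun.symm fun z => (v z : ℚ_[p])) fun v v' => by
      rw [← smul_add, ← map_add]
      exact congrArg _ (congrArg _ (funext fun z => PadicInt.coe_add _ _))
  let ψ : (Fin W.index × QG W V → ℤ_[p]) →+ FAd W V := AddMonoidHom.mk'
    (fun v => FAd.mk W V (ψF v : F).1 fun g hg => (ψF v).2 ⟨g, hg.1⟩) fun v v' =>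
      FAd.val_injective W V (congrArg Subtype.val (map_add ψF v v') :)
  have hψF : ∀ v, (ψF v : PadicAlgCl p) = ∑ z, ((c⁻¹ * (v z : ℚ_[p])) • FAd.val W V (b z)) :=
    fun v => by
    show ((c⁻¹ • B.equivFun.symm fun z => (v z : ℚ_[p]) : F) : PadicAlgCl p) = _
    rw [B.equivFun_symm_apply, Finset.smul_sum, AddSubmonoidClass.coe_finsetSum]
    refine Finset.sum_congr rfl fun z _ => ?_
    rw [← mul_smul, IntermediateField.coe_smul, hB]
  obtain ⟨M, hM⟩ := exists_pow_mul_le (p := p)
    (Finset.sum_nonneg fun z _ => norm_nonneg (c⁻¹ • FAd.val W V (b z))) hr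
  refine ⟨ψ, M, fun v v' h => ?_, fun g v => ?_, fun x hx => ?_, fun v => ?_⟩
  · have h1 : ψF v = ψF v' := Subtype.ext (congrArg (FAd.val W V) h)
    have h2 := B.equivFun.symm.injective (smul_right_injective F (inv_ne_zero hc) h1)
    exact funext fun z => PadicInt.ext (congrFun h2 z)
  · obtain ⟨w, rfl⟩ := QuotientGroup.mk'_surjective (V.subgroupOf W) g
    refine FAd.val_injective W V ?_
    rw [FAd.val_smul]
    show (w : Gal' p) (ψF v : PadicAlgCl p) = (ψF _ : PadicAlgCl p)
    rw [hψF, hψF, map_sum]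
    refine Fintype.sum_equiv ((Equiv.refl (Fin W.index)).prodCongr (Equiv.mulLeft (qg W V w))) _ _
      fun z => ?_
    rw [Algebra.smul_def, map_mul, AlgEquiv.commutes, ← Algebra.smul_def, ← FAd.val_smul,
      show b z = b (z.1, z.2) from rfl, hb]
    simp [Prod.map]
  · set y : F := ⟨FAd.val W V x, hmemF x⟩
    have hbound : ∀ z, ‖B.equivFun (c • y) z‖ ≤ 1 := fun z => by
      refine (norm_le_pi_norm _ z).trans ?_
      refine ((show ‖B.equivFun (c • y)‖ = ‖κ (c • y)‖ from rfl).le.trans (κ.le_opNorm _)).trans ?_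
      rw [norm_smul, mul_left_comm, mul_comm ‖c‖]
      refine le_trans (mul_le_mul_of_nonneg_right (mul_le_mul_of_nonneg_left
        (mem_ballS.mp hx : ‖y‖ ≤ r) (norm_nonneg κ)) (norm_nonneg c)) hN
    refine ⟨fun z => ⟨B.equivFun (c • y) z, hbound z⟩, FAd.val_injective W V ?_⟩
    show ((c⁻¹ • B.equivFun.symm (B.equivFun (c • y)) : F) : PadicAlgCl p) = FAd.val W V x
    rw [LinearEquiv.symm_apply_apply, ← mul_smul, inv_mul_cancel₀ hc, one_smul]
  · show ‖FAd.val W V (p ^ M • ψ v)‖ ≤ r
    rw [map_nsmul]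
    show ‖p ^ M • (ψF v : PadicAlgCl p)‖ ≤ r
    rw [hψF, nsmul_eq_mul, Nat.cast_pow, norm_mul, norm_pow,
      show ‖(p : PadicAlgCl p)‖ = ‖(p : ℚ_[p])‖ by
        rw [← map_natCast (algebraMap ℚ_[p] (PadicAlgCl p)), PadicAlgCl.norm_extends]]
    rw [← norm_pow, mul_comm]
    refine le_trans (mul_le_mul_of_nonneg_right ((norm_sum_le _ _).trans
      (Finset.sum_le_sum fun z _ => ?_)) (norm_nonneg _)) hM
    rw [mul_comm c⁻¹, mul_smul, norm_smul]
    exact mul_le_of_le_one_left (norm_nonneg _) (v z).2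

variable {ι : Type} (ψ : (ι → ℤ_[p]) →+ FAd W V) (Λ : Stable (QG W V) (FAd W V))
  (hΛ : Λ.sub = ψ.range)
include hΛ

/-- A group containing a multiple of a lattice has finite index in it. -/
private lemma relIndex_ne_zero_of_pow_smul [Finite ι] (hψinj : Function.Injective ψ) {M : ℕ}
    {X : Stable (QG W V) (FAd W V)} (hM : ∀ v, p ^ M • ψ v ∈ X.sub) :
    X.sub.relIndex Λ.sub ≠ 0 := by
  have h1 : (ψ.range.map (nsmulAddMonoidHom (p ^ M))) ≤ X.sub := by
    rintro _ ⟨_, ⟨v, rfl⟩, rfl⟩
    exact hM v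
  refine fun h0 => ?_
  have h2 := AddSubgroup.relIndex_eq_zero_of_le_left h1 h0
  rw [hΛ, AddMonoidHom.range_eq_map ψ, AddSubgroup.map_map,
    show (nsmulAddMonoidHom (p ^ M) : FAd W V →+ _).comp ψ = ψ.comp (nsmulAddMonoidHom (p ^ M)) from
      AddMonoidHom.ext fun v => (map_nsmul ψ _ v).symm,
    ← AddSubgroup.map_map,
    AddSubgroup.relIndex_map_map_of_injective _ _ hψinj, AddSubgroup.relIndex_top_right] at h2
  let red' : (ι → ℤ_[p]) →+ (ι → ZMod (p ^ M)) :=
    ((PadicInt.toZModPow M).toAddMonoidHom).compLeft _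
  have hker : red'.ker ≤ (⊤ : AddSubgroup _).map (nsmulAddMonoidHom (p ^ M)) := fun v hv => by
    have h4 : ∀ z, ∃ y : ℤ_[p], (p : ℤ_[p]) ^ M * y = v z := fun z => by
      have h5 : v z ∈ RingHom.ker (PadicInt.toZModPow (p := p) M) := congrFun hv z
      rw [PadicInt.ker_toZModPow, Ideal.mem_span_singleton] at h5
      obtain ⟨y, hy⟩ := h5
      exact ⟨y, hy.symm⟩
    choose y hy using h4
    exact ⟨y, trivial, funext fun z => by
      show p ^ M • y z = v z
      rw [nsmul_eq_mul, Nat.cast_pow, hy z]⟩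
  have h6 := AddSubgroup.index_dvd_of_le hker
  rw [h2, zero_dvd_iff, AddSubgroup.index_ker] at h6
  have : NeZero (p ^ M) := ⟨pow_ne_zero _ hp.out.ne_zero⟩
  exact Nat.card_pos.ne' h6

/-- The reduction of a lattice is that of the integral lattice. -/
private lemma exists_modp_bijective [MulAction (QG W V) ι] (hψinj : Function.Injective ψ)
    (hψs : ∀ (g : QG W V) v, g • ψ v = ψ fun z => v (g⁻¹ • z)) :
    ∃ red : Modp p (PermLat ι) →+ Quo Λ (pMul p Λ), Function.Bijective red ∧
      ∀ (g : QG W V) a, red (g • a) = g • red a := by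
  have hmem : ∀ v, ψ v ∈ Λ.sub := fun v => hΛ ▸ ⟨v, rfl⟩
  let red : Modp p (PermLat ι) →+ Quo Λ (pMul p Λ) :=
    QuotientAddGroup.lift _ ((Quo.mk Λ (pMul p Λ)).comp (AddMonoidHom.mk'
      (fun v : PermLat ι => (⟨ψ fun z => ((v : ι → ℤ) z : ℤ_[p]), hmem _⟩ : Λ.Mod))
      fun v v' => Subtype.ext (by
        show ψ _ = ψ _ + ψ _
        rw [← map_add]
        exact congrArg ψ (funext fun z => Int.cast_add _ _))))
      fun v hv => by
        obtain ⟨u, rfl⟩ := hv
        refine (Quo.mk_eq_zero_iff _ _).mpr (mem_pMul.mpr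
          ⟨ψ fun z => ((u : ι → ℤ) z : ℤ_[p]), hmem _, ?_⟩)
        show p • ψ _ = ψ fun z => (((p • u : PermLat _) : ι → ℤ) z : ℤ_[p])
        rw [← map_nsmul]
        refine congrArg ψ (funext fun z => ?_)
        show p • ((u : ι → ℤ) z : ℤ_[p]) = ((p • ((u : ι → ℤ) z) : ℤ) : ℤ_[p])
        rw [nsmul_eq_mul, nsmul_eq_mul, Int.cast_mul, Int.cast_natCast]
  refine ⟨red, ⟨(injective_iff_map_eq_zero red).mpr fun a ha => ?_, fun a => ?_⟩, fun g a => ?_⟩
  · obtain ⟨v, rfl⟩ := toModp_surjective p _ a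
    obtain ⟨_, hy', hy⟩ := mem_pMul.mp ((Quo.mk_eq_zero_iff _ _).mp ha)
    obtain ⟨u, rfl⟩ := hΛ ▸ hy'
    rw [← map_nsmul] at hy
    have h2 := hψinj hy
    have h3 : ∀ z, (p : ℤ) ∣ (v : ι → ℤ) z := fun z => by
      refine PadicInt.norm_int_lt_one_iff_dvd _ |>.mp ?_
      rw [← congrFun h2 z, Pi.smul_apply, nsmul_eq_mul, norm_mul]
      exact lt_of_le_of_lt (mul_le_of_le_one_right (norm_nonneg _) (PadicInt.norm_le_one _))
        (by rw [PadicInt.norm_p]; exact inv_lt_one_of_one_lt₀ (by exact_mod_cast hp.out.one_lt))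
    choose k hk using h3
    refine (toModp_eq_zero_iff p _).mpr ⟨k, funext fun z => ?_⟩
    show p • (k z : ℤ) = _
    rw [nsmul_eq_mul, hk z]
  · obtain ⟨⟨_, hv⟩, rfl⟩ := Quo.mk_surjective Λ (pMul p Λ) a
    obtain ⟨v, rfl⟩ := hΛ ▸ hv
    have h3 : ∀ z, ∃ y : ℤ_[p], (p : ℤ_[p]) * y = v z - (v z).zmodRepr := fun z => by
      have h := (PadicInt.zmodRepr_spec (v z)).2
      rw [PadicInt.maximalIdeal_eq_span_p, Ideal.mem_span_singleton] at h
      obtain ⟨y, hy⟩ := h
      exact ⟨y, hy.symm⟩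
    choose y hy using h3
    refine ⟨toModp p _ (fun z => ((v z).zmodRepr : ℤ)), ?_⟩
    symm
    rw [← sub_eq_zero]
    show Quo.mk Λ (pMul p Λ) ⟨ψ v, _⟩ - Quo.mk Λ (pMul p Λ) _ = 0
    rw [← map_sub, Quo.mk_eq_zero_iff]
    refine mem_pMul.mpr ⟨ψ y, hmem _, ?_⟩
    show p • ψ y = ψ v - ψ _
    rw [← map_nsmul, ← map_sub]
    refine congrArg ψ (funext fun z => ?_)
    show p • y z = v z - (((v z).zmodRepr : ℤ) : ℤ_[p])
    rw [Int.cast_natCast, ← hy z, nsmul_eq_mul]
  · obtain ⟨v, rfl⟩ := toModp_surjective p _ a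
    refine congrArg (Quo.mk Λ (pMul p Λ)) (Subtype.ext ?_)
    show ψ _ = g • ψ _
    rw [hψs]
    rfl

end Lattice

omit hp [Finite A] in
/-- The fixed functions on the indices of a permuted basis. -/
private lemma ldim_h0Sub_funMod (n : ℕ) [DistribMulAction (QG W V) A] :
    ldim p (h0Sub (QG W V) (FunMod (Fin n × QG W V) A)) = ldim p (Fin n → A) :=
  ldim_congr p
    { toFun := fun Φ i => (Φ.1 : Fin n × QG W V → A) (i, 1)
      invFun := fun v => ⟨(fun z => z.2 • v z.1 : Fin n × QG W V → A), fun g => funext fun z => by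
        show g • (g⁻¹ * z.2) • v z.1 = z.2 • v z.1
        rw [← mul_smul, mul_inv_cancel_left]⟩
      left_inv := fun Φ => Subtype.ext (funext fun z => by
        have h := congrFun (Φ.2 z.2) z
        change z.2 • (Φ.1 : Fin n × QG W V → A) (z.1, z.2⁻¹ * z.2) = _ at h
        rw [inv_mul_cancel] at h
        exact h)
      right_inv := fun v => funext fun i => one_smul _ _ }

/-- The invariant of a ball modulo `q`. -/
theorem invHom_quo_ballS (hqp : p = q) (T : LLayer χ W V) [Fintype (QG W V)]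
    [DistribMulAction (QG W V) A] (hA : ∀ a : A, p • a = 0) {r : ℝ} (hr : 0 < r) :
    Finite (Quo (ballS W V r hr.le) (pMul p (ballS W V r hr.le))) ∧
      (invHom (p := p) (P := QG W V) A T.not_dvd_card hA).val
        (Quo (ballS W V r hr.le) (pMul p (ballS W V r hr.le))) = W.index * ldim p A := by
  subst hqp
  set f := invHom (p := p) (P := QG W V) A T.not_dvd_card hA
  obtain ⟨ψ, M, hψinj, hψs, hle, hM⟩ := exists_lattice T.le T.level hr
  let Λ : Stable (QG W V) (FAd W V) := ⟨ψ.range, fun g x hx => by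
    obtain ⟨v, rfl⟩ := hx
    exact ⟨_, (hψs g v).symm⟩⟩
  set X := ballS W V r hr.le
  -- the reduction of the lattice
  obtain ⟨red, hred, hredg⟩ := exists_modp_bijective ψ Λ rfl hψinj hψs
  have := finite_modp p (PermLat (Fin W.index × QG W V))
  have : Finite (Quo Λ (pMul p Λ)) := Finite.of_surjective _ hred.2
  have : Subsingleton (torStable p Λ).Mod := torStable_eq_bot Λ
  have : Finite (torStable p Λ).Mod := Finite.of_subsingleton
  obtain ⟨e, hfX, -⟩ :=
    phi_stable_eq f X Λ hle (relIndex_ne_zero_of_pow_smul ψ Λ rfl hψinj hM)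
  have := torStable_eq_bot (p := p) X
  refine ⟨hfX, ?_⟩
  simp only [phi, f.val_of_subsingleton, sub_zero] at e
  rw [e, ← f.val_congr (nsmul_quo le_rfl) red hred hredg]
  show f.latVal (PermLat (Fin W.index × QG W V)) = _
  rw [invHom_permLat, ldim_h0Sub_funMod, ldim_pi, Finset.sum_const, Finset.card_univ,
    Fintype.card_fin]
  simp

end FermatAgent.CFT.LocalEuler
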