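import Fermat.Agent.CFT.Euler.Good
import Fermat.Agent.CFT.Global.Kummer

/-!
Cohomology in degree two of an invariant datum, and the Euler characteristic with a correction.
-/

set_option autoImplicit false

noncomputable section

open scoped Classical

namespace FermatAgent.CFT.LocalEuler

open Coh Euler

variable {p : ℕ} [hp : Fact p.Prime] {Γ : Type} [Group Γ] {U : Subgroup Γ}

variable {χ : Γ →* (ZMod p)ˣ} {L : Levels Γ} (I : InvDatum χ L)

include I in
/-- The second cohomology is dual to the equivariant functionals. -/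
theorem finite_H2_and_ldim (hUn : U.Normal) (hU : U ∈ L) (hUχ : U ≤ χ.ker) {M : Type}
    [AddCommGroup M] [DistribMulAction Γ M] [Finite M] (hM : Good p U M) :
    Finite (H2 L M) ∧ ldim p (H2 L M) = ldim p (eqHom χ (MonoidHom.id Γ) M) := by
  have := L.finiteIndex hU
  let : Module (ZMod p) M := AddCommGroup.zmodModule hM.killed
  have : Finite (M →+ ZMod p) := DFunLike.finite _
  have := DFunLike.finite (eqHom χ (MonoidHom.id Γ) M →+ ZMod p)
  let ev : H2 L M →+ (eqHom χ (MonoidHom.id Γ) M →+ ZMod p) :=
    QuotientAddGroup.lift _ (AddMonoidHom.mk' (fun f : ↥(L.Z2 ⊤ M) => I.evalHom f.2)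
      fun f f' => AddMonoidHom.ext fun n => I.eval_add f.2 f'.2 n.2)
      fun f hf => AddMonoidHom.ext fun n => I.eval_eq_zero_of_mem_B2 hf n.2
  have hev : Function.Bijective ev := by
    refine ⟨(injective_iff_map_eq_zero ev).mpr fun x hx => ?_, fun θ => ?_⟩
    · obtain ⟨f, rfl⟩ := cls2_surjective x
      exact cls2_eq_zero_iff.mpr (I.mem_B2_of_eval hUn hU hUχ hM.triv f.2 fun n hn =>
        DFunLike.congr_fun hx ⟨n, hn⟩)
    · obtain ⟨f, hf, hfθ⟩ := I.exists_eval_eq hUn hU hUχ hM.triv θ
      exact ⟨cls2 L M ⟨f, hf⟩, AddMonoidHom.ext hfθ⟩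
  have : Finite (H2 L M) := Finite.of_injective _ hev.1
  refine ⟨inferInstance, ?_⟩
  rw [ldim, ldim, Nat.card_congr (Equiv.ofBijective _ hev), card_homZMod]
  exact fun n => Subtype.ext (AddMonoidHom.ext fun m => by simp)

/-- The Euler characteristic, corrected by a multiple of the dimension. -/
def lEuler (p : ℕ) (L : Levels Γ) (c : ℕ) (M : Type) [AddCommGroup M] [DistribMulAction Γ M] : ℤ :=
  (ldim p (H1 L M) : ℤ) - ldim p (H2 L M) - ldim p (h0Sub Γ M) - (c : ℤ) * ldim p M

/-- What the additivity uses: a normal level inside the kernel and finiteness in degree one. -/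
structure LSet (χ : Γ →* (ZMod p)ˣ) (L : Levels Γ) (U : Subgroup Γ) : Type where
  /-- The invariants. -/
  inv : InvDatum χ L
  normal : U.Normal
  level : U ∈ L
  le_ker : U ≤ χ.ker
  finH1 : ∀ (M : Type) [AddCommGroup M] [DistribMulAction Γ M] [Finite M], Good p U M →
    Finite (H1 L M)

variable (T : LSet χ L U)

include T in
/-- The subgroup has finite index. -/
lemma LSet.finiteIndex : U.FiniteIndex := L.finiteIndex T.level

include T in
/-- Good modules are smooth. -/
lemma LSet.smooth {M : Type} [AddCommGroup M] [DistribMulAction Γ M] (hM : Good p U M) :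
    L.Smooth M := fun m => ⟨U, T.level, fun g hg => hM.triv g hg m⟩

include T in
/-- Additivity. -/
theorem LSet.euler_add {c : ℕ} {A B C : Type} [AddCommGroup A] [DistribMulAction Γ A]
    [AddCommGroup B] [DistribMulAction Γ B] [AddCommGroup C] [DistribMulAction Γ C] [Finite B]
    (hB : Good p U B) (E : Ses Γ A B C) :
    lEuler p L c B = lEuler p L c A + lEuler p L c C := by
  have : Finite A := Finite.of_injective _ E.inj
  have : Finite C := Finite.of_surjective _ E.surj
  have hA := hB.of_injective E.i E.inj E.i_smul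
  have hC := hB.of_surjective E.q E.surj E.q_smul
  have := T.finH1 A hA
  have := T.finH1 B hB
  have := T.finH1 C hC
  have := (finite_H2_and_ldim T.inv T.normal T.level T.le_ker hA).1
  have := (finite_H2_and_ldim T.inv T.normal T.level T.le_ker hB).1
  have := (finite_H2_and_ldim T.inv T.normal T.level T.le_ker hC).1
  let : Module (ZMod p) B := AddCommGroup.zmodModule hB.killed
  let : Module (ZMod p) C := AddCommGroup.zmodModule hC.killed
  have := T.finiteIndex
  have h := E.euler_add (T.smooth hB) p (h2Map_surjective (p := p) E.q E.q_smul E.surj hB.triv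
    (T.inv.corSurj U T.normal T.level T.le_ker C))
  have hd := ldim_short p E.i E.q E.inj E.surj (by
    ext b
    exact ((E.exact b).symm))
  simp only [lEuler, hd, Nat.cast_add, mul_add]
  linarith

end FermatAgent.CFT.LocalEuler
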