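import Fermat.Agent.CFT.LocalEuler.Basic
import Fermat.Agent.CFT.Local.InvDatum
import Fermat.Agent.CFT.Field.KummerTheory

/-!
Local Kummer theory of an element and finiteness in degree one.
-/

set_option autoImplicit false

noncomputable section

open scoped Classical

namespace FermatAgent.CFT.LocalEuler

open Coh Euler Local IntermediateField

variable {q : ℕ} [hq : Fact q.Prime] {p : ℕ} [hp : Fact p.Prime]

/-- A root of unity of order `p` with its character. -/
structure RootDatum (χ : Gal' q →* (ZMod p)ˣ) where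
  /-- The root. -/
  ζ : PadicAlgCl q
  prim : IsPrimitiveRoot ζ p
  act : ∀ g : Gal' q, g ζ = ζ ^ ((χ g : ZMod p)).val

variable {χ : Gal' q →* (ZMod p)ˣ} (R : RootDatum χ)

/-- The root as an element of the module. -/
abbrev RootDatum.z : MM q := zetaUx R.prim

variable {F : IntermediateField ℚ_[q] (PadicAlgCl q)} (hF : F.fixingSubgroup ≤ χ.ker)

include hF in
/-- The field fixes the root of unity. -/
lemma RootDatum.smul_z_eq {g : Gal' q} (hg : g ∈ F.fixingSubgroup) : g • R.z = R.z := by
  have : Fact (1 < p) := ⟨hp.out.one_lt⟩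
  refine Ux.ext ?_
  rw [Ux.val_smul, RootDatum.z, Ux.val_mk, R.act g, MonoidHom.mem_ker.mp (hF hg), Units.val_one,
    ZMod.val_one, pow_one]

include hF in
lemma RootDatum.mem : R.ζ ∈ F :=
  mem_fixedUx_fixingSubgroup.mp (fun _ hg => R.smul_z_eq hF hg : R.z ∈ fixedUx F.fixingSubgroup)

/-- The Kummer character of an element. -/
abbrev RootDatum.char {a : MM q} (ha : a ∈ starF F) : CycChar (LL q) F.fixingSubgroup p :=
  rootChar R.prim (R.smul_z_eq hF) ha

variable [FiniteDimensional ℚ_[q] F]

omit [FiniteDimensional ℚ_[q] F] in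
variable (F) in
/-- The multiples of `p` in the multiplicative group. -/
def pPow : AddSubgroup ↥(starF F) := ((starF F).map (nsmulAddMonoidHom p)).addSubgroupOf (starF F)

include R hF in
/-- The classes modulo `p`-th powers are finite. -/
lemma finite_powerClasses : Finite (↥(starF F) ⧸ pPow (p := p) F) := by
  have : (pPow (p := p) F).FiniteIndex := ⟨by
    show ((starF F).map (nsmulAddMonoidHom p)).relIndex (starF F) ≠ 0
    rw [relIndex_pth_starF_eq R.prim (R.mem hF), pIdx]
    refine mul_ne_zero (pow_ne_zero _ hp.out.ne_zero) ?_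
    split_ifs <;> simp [hq.out.ne_zero]⟩
  exact AddSubgroup.finite_quotient_of_finiteIndex

include hF in
lemma finite_range_kum :
    (Set.range fun a : ↥(starF F) => fun g : F.fixingSubgroup => kum R.prim a.1 g.1).Finite := by
  have : Finite (↥(starF F) ⧸ ((starF F).map (nsmulAddMonoidHom p)).addSubgroupOf (starF F)) :=
    finite_powerClasses R hF
  refine finite_range_of_nsmul (p := p) (starF F)
    (fun a => fun g : F.fixingSubgroup => kum R.prim a g.1)
    fun a ha c hc => funext fun g => ?_
  show kum R.prim (a + p • c) g.1 = kum R.prim a g.1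
  rw [kum_add R.prim (R.smul_z_eq hF) ha (nsmul_mem hc p) g.2,
    kum_nsmul R.prim (R.smul_z_eq hF) hc g.2, add_zero]

include R in
/-- Finiteness of the first cohomology. -/
theorem finite_H1 {U : Subgroup (Gal' q)} (hU : U ∈ LL q) (hUχ : U ≤ χ.ker) (M : Type)
    [AddCommGroup M] [DistribMulAction (Gal' q) M] [Finite M] (hM : Good p U M) :
    Finite (H1 (LL q) M) := by
  have := finiteDimensional_fixedField hU
  set F := fixedField U
  have hfix : F.fixingSubgroup = U := fixingSubgroup_fixedField_of_mem hU
  have hF : F.fixingSubgroup ≤ χ.ker := hfix.le.trans hUχ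
  have : F.fixingSubgroup.FiniteIndex := (LL q).finiteIndex (fix_mem F)
  suffices Finite ↥((LL q).Z1 ⊤ M) from Finite.of_surjective _ cls1_surjective
  refine finite_Z1_of_finite_chars (hfix.symm ▸ hM) (finite_range_kum R hF) fun c hc n => ?_
  obtain ⟨a, ha, he⟩ := exists_kum_eq R.prim (fix_mem F) (R.smul_z_eq hF)
    ({ toFun := fun g => n (c g)
       map_mul' := fun g hg h _ => by
        rw [Levels.Z1_apply_mul hc (Subgroup.mem_top g) (Subgroup.mem_top h),
          hM.triv g (hfix.le hg), map_add, add_comm]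
       const' := by
        obtain ⟨V, hV, hcV⟩ := hc.1
        exact ⟨V, hV, fun g _ s hs => congrArg n (hcV g trivial s ⟨trivial, hs.2⟩)⟩ } :
      CycChar (LL q) F.fixingSubgroup p)
  exact ⟨⟨a, ha⟩, funext fun g => (he g.1 g.2).symm⟩

/-- The local setting of a normal level. -/
def lSet {U : Subgroup (Gal' q)} (hUn : U.Normal) (hU : U ∈ LL q) (hUχ : U ≤ χ.ker) :
    LSet χ (LL q) U where
  inv := invDatum χ R.prim R.act
  normal := hUn
  level := hU
  le_ker := hUχ
  finH1 M _ _ _ hM := finite_H1 R hU hUχ M hM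

end FermatAgent.CFT.LocalEuler
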