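import Fermat.Agent.CFT.LocalEuler.KummerIso
import Fermat.Agent.CFT.LocalEuler.Kummer

/-!
The first cohomology of a local layer in terms of equivariant maps into the multiplicative group
modulo a prime.
-/

set_option autoImplicit false
set_option maxSynthPendingDepth 3

noncomputable section

open scoped Classical

namespace FermatAgent.CFT.LocalEuler

open Coh Euler Local IntermediateField

variable {q : ℕ} [hq : Fact q.Prime] {p : ℕ} [hp : Fact p.Prime] {χ : Gal' q →* (ZMod p)ˣ}

/-- A normal sublevel of index prime to `p` inside the kernel of the character. -/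
structure LLayer (χ : Gal' q →* (ZMod p)ˣ) (W V : Subgroup (Gal' q)) : Prop where
  le : V ≤ W
  level : V ∈ LL q
  le_ker : V ≤ χ.ker
  coprime : ¬ p ∣ V.relIndex W

variable (W V : Subgroup (Gal' q)) [hn : (V.subgroupOf W).Normal]

variable {W V}

namespace LLayer

variable (T : LLayer χ W V)

include T
omit hn

lemma inf_eq : V ⊓ W = V := inf_eq_left.mpr T.le

lemma finiteIndex : V.FiniteIndex := (LL q).finiteIndex T.level

/-- The quotient group is finite. -/
lemma finite_qg : Finite (QG W V) := by
  have := T.finiteIndex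
  exact Subgroup.finite_quotient_of_finiteIndex (H := V.subgroupOf W)

/-- The order of the quotient is prime to `p`. -/
lemma not_dvd_card [Fintype (QG W V)] :
    ¬ p ∣ Fintype.card (QG W V) := by
  rw [← Nat.card_eq_fintype_card]
  exact T.coprime

/-- The field of the intersection trivialises the character. -/
lemma field : ∃ F : IntermediateField ℚ_[q] (PadicAlgCl q), FiniteDimensional ℚ_[q] F ∧
    F.fixingSubgroup = V ⊓ W ∧ F.fixingSubgroup ≤ χ.ker :=
  ⟨fixedField V, finiteDimensional_fixedField T.level,
    (fixingSubgroup_fixedField_of_mem T.level).trans T.inf_eq.symm,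
    (fixingSubgroup_fixedField_of_mem T.level).le.trans T.le_ker⟩

end LLayer

variable (R : RootDatum χ) (T : LLayer χ W V) {N : Type} [AddCommGroup N] [DistribMulAction W N]
  [Finite N]

omit [Finite N] [DistribMulAction W N] [AddCommGroup N] in
include R T in
/-- The multiplicative group of the field of the sublevel pairs with it by Kummer theory. -/
private lemma nonempty_fxPairing : Nonempty (KummerPairing (LL q) W V χ (Fx W V)) := by
  have := T.finiteIndex
  obtain ⟨F, hfd, hfix, hFχ⟩ := T.field
  have hmem : ∀ x : Fx W V, Fx.val W V x ∈ starF F := fun x => by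
    rw [starF, hfix]; exact Fx.val_mem W V x
  have hW' : ∀ {g}, g ∈ F.fixingSubgroup → g • R.z = R.z := R.smul_z_eq hFχ
  refine ⟨
    { pair := fun x g => kum R.prim (Fx.val W V x) g
      add := fun x y g hg => by
        rw [map_add]; exact kum_add R.prim hW' (hmem x) (hmem y) (hfix.ge hg)
      map_mul := fun x g hg h hh =>
        CycChar.map_mul (rootChar R.prim hW' (hmem x)) (hfix.ge hg) (hfix.ge hh)
      nsmul := fun x g hg => by
        rw [map_nsmul]; exact kum_nsmul R.prim hW' (hmem x) (hfix.ge hg)
      equivariant := fun w x g hg => ?_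
      left_inj := fun x hx => ?_
      exists_eq := fun a ha hac => ?_
      continuous := fun x => ?_ }⟩
  · have h1 := kum_conj R.prim R.act hW' (hmem x) (γ := (w : Gal' q))
      (fun t ht => hfix.ge (conj_mem_inter W V w (hfix.le ht)))
      (hfix.ge (conj_mem_inter' W V w hg)) (by rw [← Fx.val_smul W V w x]; exact hmem _)
    rw [show (w : Gal' q) * ((w : Gal' q)⁻¹ * g * (w : Gal' q)) * (w : Gal' q)⁻¹ = g by group] at h1
    rw [Fx.val_smul]
    exact h1
  · obtain ⟨c, hc, hcx⟩ := exists_nsmul_of_kum_eq_zero R.prim (hmem x) fun g hg => hx g (hfix.le hg)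
    refine ⟨Fx.mk W V c (by rw [← hfix]; exact hc), Fx.val_injective W V ?_⟩
    rw [map_nsmul, Fx.val_mk, hcx]
  · obtain ⟨U, hU, hUc⟩ := hac
    obtain ⟨b, hb, hab⟩ := exists_kum_eq R.prim (fix_mem F) hW'
      { toFun := a
        map_mul' := fun g hg h hh => ha g (hfix.le hg) h (hfix.le hh)
        const' := ⟨U, hU, fun g hg s hs => hUc g (hfix.le hg) s hs.2 (hfix.le hs.1)⟩ }
    exact ⟨Fx.mk W V b (by rw [← hfix]; exact hb), fun g hg => (hab g (hfix.ge hg)).symm⟩
  · obtain ⟨U, hU, hUc⟩ := smooth_ux (k := ℚ_[q]) (pRoot p (Fx.val W V x))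
    exact ⟨U, hU, fun s hs hs' => kum_eq_of_root R.prim hW' (hmem x) (nsmul_pRoot _) (hfix.ge hs')
      (by rw [hUc s hs, sub_self, ZMod.val_zero, zero_smul])⟩

include R T in
/-- The first cohomology of the level has the size of equivariant maps into the multiplicative group
modulo `p`. -/
theorem ldim_H1_eq_hom (hV : TrivG W V N) (hN : ∀ n : N, p • n = 0) :
    letI := quoActG (Dual (χ.comp W.subtype) N) (trivG_dual T.le_ker hV)
    ldim p (H1 ((LL q).comap W.subtype) N) =
      ldim p (h0Sub (QG W V) (HomTw (MonoidHom.id (QG W V)) (Dual (χ.comp W.subtype) N)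
        (Modp p (Fx W V)))) := by
  have := T.finite_qg
  let : Fintype (QG W V) := Fintype.ofFinite _
  obtain ⟨P⟩ := nonempty_fxPairing R T
  exact P.ldim_H1_eq T.not_dvd_card ((LL q).inf_mem T.level ((LL q).mem_of_le T.level T.le))
    T.le_ker hV hN

end FermatAgent.CFT.LocalEuler
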