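import Fermat.Agent.CFT.LocalEuler.Additive

/-!
The invariant of the multiplicative group of the field of a layer modulo a prime.

`ldim_hom_Fx`: for a finite module `A` of a layer of Galois groups over `ℚ_q`, the dimension of the
equivariant maps into the multiplicative group modulo `p` is that of the maps into roots of unity,
plus that of the invariants of `A`, plus the index times that of `A` when `p = q`.
The valuation splits off the invariants, and the units are compared with their stable principal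
subgroups `nearS`, on which `p`-th powers have known index (`invHom_phi_unitS`).
-/

set_option autoImplicit false
set_option maxSynthPendingDepth 3

noncomputable section

open scoped Classical

namespace FermatAgent.CFT.LocalEuler

open Coh Euler Euler.AddInv Local IntermediateField

variable {q : ℕ} [hq : Fact q.Prime] {p : ℕ} [hp : Fact p.Prime] {χ : Gal' q →* (ZMod p)ˣ}

variable (W V : Subgroup (Gal' q)) [hn : (V.subgroupOf W).Normal]

/-- A subgroup of units given by absolute values. -/
def normS (Y : AddSubgroup (MM q)) (hY : ∀ (g : Gal' q), ∀ a ∈ Y, g • a ∈ Y) :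
    Stable (QG W V) (Fx W V) where
  sub := Y.comap (Fx.val W V)
  smul_mem g x hx := by
    obtain ⟨w, rfl⟩ := QuotientGroup.mk'_surjective (V.subgroupOf W) g
    show Fx.val W V (qg W V w • x) ∈ Y
    rw [Fx.val_smul]
    exact hY _ _ hx

section
omit hn

lemma smul_unitsUx (g : Gal' q) (a : MM q) (ha : a ∈ unitsUx q) : g • a ∈ unitsUx q := by
  rw [mem_unitsUx] at ha ⊢
  rwa [Ux.val_smul, norm_apply]

lemma smul_nearUx {r : ℝ} {hr0 : 0 ≤ r} {hr : r < 1} (g : Gal' q) (a : MM q)
    (ha : a ∈ nearUx q r hr0 hr) : g • a ∈ nearUx q r hr0 hr := by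
  rw [mem_nearUx] at ha ⊢
  rw [Ux.val_smul, ← map_one g, ← map_sub, norm_apply]
  exact ha

lemma apply_val_fad (y : FAd W V) {g : Gal' q} (hg : g ∈ V ⊓ W) :
    g (FAd.val W V y) = FAd.val W V y :=
  FAd.val_mem W V y g hg

end

/-- The units. -/
def unitS : Stable (QG W V) (Fx W V) := normS W V (unitsUx q) smul_unitsUx

/-- The principal units of a level. -/
def nearS (F : IntermediateField ℚ_[q] (PadicAlgCl q)) [FiniteDimensional ℚ_[q] F] (a : ℕ) :
    Stable (QG W V) (Fx W V) :=
  normS W V (nearUx q (‖unif F‖ ^ (a + 1)) (pow_nonneg (norm_nonneg _) _)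
    (unif_pow_lt_one F (by omega))) smul_nearUx

variable {W V} (R : RootDatum χ) (T : LLayer χ W V)

lemma mem_unitS {x : Fx W V} : x ∈ (unitS W V).sub ↔ ‖(Fx.val W V x).val‖ = 1 := mem_unitsUx

variable {F : IntermediateField ℚ_[q] (PadicAlgCl q)} [FiniteDimensional ℚ_[q] F]
  (hF : F.fixingSubgroup = V ⊓ W)

include hF

omit hn [FiniteDimensional ℚ_[q] F] in
lemma val_mem_starF (x : Fx W V) : Fx.val W V x ∈ starF F := by
  rw [starF, hF]; exact Fx.val_mem W V x

omit [FiniteDimensional ℚ_[q] F] in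
lemma map_unitS : (unitS W V).sub.map (Fx.val W V) = unitsF F := by
  ext a
  constructor
  · rintro ⟨x, hx, rfl⟩
    exact ⟨val_mem_starF hF x, hx⟩
  · rintro ⟨h1, h2⟩
    exact ⟨Fx.mk W V a (by rw [← hF]; exact h1), h2, rfl⟩

lemma map_nearS (a : ℕ) : (nearS W V F a).sub.map (Fx.val W V) = nearF F a := by
  ext b
  constructor
  · rintro ⟨x, hx, rfl⟩
    exact ⟨val_mem_starF hF x, hx⟩
  · rintro ⟨h1, h2⟩
    exact ⟨Fx.mk W V b (by rw [← hF]; exact h1), h2, rfl⟩

lemma nearS_le (a : ℕ) : (nearS W V F a).sub ≤ (unitS W V).sub := fun x hx =>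
  (mem_unitS).mpr ((mem_unitsF F).mp (nearF_le_unitsF F a ⟨val_mem_starF hF x, hx⟩)).2

lemma relIndex_nearS (a : ℕ) : (nearS W V F a).sub.relIndex (unitS W V).sub ≠ 0 := by
  rw [← AddSubgroup.relIndex_map_map_of_injective _ _ (Fx.val_injective W V), map_nearS hF,
    map_unitS hF]
  exact relIndex_nearF_unitsF F a

lemma pMul_nearS {a e : ℕ} (he : ‖(p : PadicAlgCl q)‖ = ‖unif F‖ ^ e) (hae : e < a + 1) :
    (pMul p (nearS W V F a)).sub = (nearS W V F (a + e)).sub := by
  refine AddSubgroup.map_injective (Fx.val_injective W V) ?_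
  rw [map_nearS hF]
  show (((nearS W V F a).sub.map (nsmulAddMonoidHom p)).map (Fx.val W V)) = _
  rw [AddSubgroup.map_map, show (Fx.val W V).comp (nsmulAddMonoidHom p) =
    (nsmulAddMonoidHom p : MM q →+ _).comp (Fx.val W V) from
      AddMonoidHom.ext fun x => map_nsmul (Fx.val W V) p x,
    ← AddSubgroup.map_map, map_nearS hF, map_nsmul_nearF F he hae]

omit hF in
lemma torStable_nearS {a : ℕ} (h : ‖unif F‖ ^ (a + 1) < ‖(p : PadicAlgCl q)‖) :
    Subsingleton (torStable p (nearS W V F a)).Mod :=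
  ⟨fun x y => by
    suffices h0 : ∀ c : (torStable p (nearS W V F a)).Mod, c = 0 by rw [h0 x, h0 y]
    intro c
    refine Subtype.ext (Fx.val_injective W V ?_)
    rw [AddSubgroup.coe_zero, map_zero]
    exact nearUx_torsionFree (hr0 := pow_nonneg (norm_nonneg _) _)
      (hr := unif_pow_lt_one F (by omega)) h c.2.1 (by
      rw [← map_nsmul, show p • c.1 = 0 from c.2.2, map_zero])⟩

omit hF [FiniteDimensional ℚ_[q] F] hn in
include R T in
/-- The multiplicative group modulo `p` is finite. -/
lemma finite_modp_Fx : Finite (Modp p (Fx W V)) := by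
  obtain ⟨F, _, hF, hFχ⟩ := T.field
  have := finite_powerClasses R hFχ
  let j : ↥(starF F) →+ Modp p (Fx W V) := (toModp p (Fx W V)).comp
    (AddMonoidHom.mk' (fun a : ↥(starF F) => Fx.mk W V a.1 (by rw [← hF]; exact a.2))
      fun a b => rfl)
  refine Finite.of_surjective (QuotientAddGroup.lift (pPow (p := p) F) j fun a ha => ?_) fun x => ?_
  · obtain ⟨c, hc, hce⟩ := AddSubgroup.mem_addSubgroupOf.mp ha
    refine (toModp_eq_zero_iff p _).mpr ⟨Fx.mk W V c (by rw [← hF]; exact hc),
      Fx.val_injective W V ?_⟩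
    rw [map_nsmul, Fx.val_mk]
    exact hce
  · obtain ⟨y, rfl⟩ := toModp_surjective p (Fx W V) x
    exact ⟨QuotientAddGroup.mk ⟨Fx.val W V y, val_mem_starF hF y⟩, rfl⟩

variable {A : Type} [AddCommGroup A] [Finite A] [Fintype (QG W V)] [DistribMulAction (QG W V) A]
  (hA : ∀ a : A, p • a = 0)

include T in
/-- The invariant of the group of units modulo `p`. -/
lemma invHom_phi_unitS [Finite (Quo (unitS W V) (pMul p (unitS W V)))]
    [Finite (torStable p (unitS W V)).Mod] :
    phi (Euler.invHom (p := p) (P := QG W V) A T.not_dvd_card hA) (unitS W V) =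
      (if p = q then W.index * ldim p A else 0 : ℕ) := by
  set f := Euler.invHom (p := p) (P := QG W V) A T.not_dvd_card hA
  by_cases hpq : p = q
  · obtain ⟨e, he, -⟩ := exists_ord_natCast (p := p) F
    have hlt : ‖unif F‖ ^ (e + 1) < ‖(p : PadicAlgCl q)‖ := by
      rw [he]; exact pow_lt_pow_right_of_lt_one₀ (norm_unif_pos F) (norm_unif_lt_one F) (by omega)
    obtain ⟨hphi, hfin, -⟩ := phi_stable_eq f (nearS W V F e) (unitS W V) (nearS_le hF e)
      (relIndex_nearS hF e)
    have := torStable_nearS (p := p) (W := W) (V := V) hlt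
    rw [← hphi, phi, f.val_of_subsingleton (A := (torStable p (nearS W V F e)).Mod),
      sub_zero, if_pos hpq]
    set r := ‖unif F‖ ^ (e + 1)
    have hr : 0 < r := pow_pos (norm_unif_pos F) _
    obtain ⟨hfinB, hB⟩ := invHom_quo_ballS (A := A) hpq T hA hr
    rw [Nat.cast_mul, ← hB]
    set X := ballS W V r hr.le
    have hr1 : r < 1 := unif_pow_lt_one F (by omega)
    have hFV : ∀ x : FAd W V, FAd.val W V x ∈ F := fun x => by
      rw [← InfiniteGalois.fixedField_fixingSubgroup F]
      exact fun g => FAd.val_mem W V x _ (hF.le g.2)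
    have hsub : ∀ x : Fx W V, (Fx.val W V x).val - 1 ∈ fixAdd (V ⊓ W) := fun x g hg => by
      rw [map_sub, map_one]
      exact congrArg (· - 1) (congrArg Ux.val (Fx.val_mem W V x g hg))
    have hpB : ∀ y : FAd W V,
        y ∈ (pMul p X).sub ↔ ‖FAd.val W V y‖ ≤ r * ‖(p : PadicAlgCl q)‖ := fun y => by
      constructor
      · intro hy
        obtain ⟨z, hz, rfl⟩ := mem_pMul.mp hy
        rw [map_nsmul, nsmul_eq_mul, norm_mul, mul_comm]
        exact mul_le_mul_of_nonneg_right hz (norm_nonneg _)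
      · intro hy
        have hm : (p : PadicAlgCl q)⁻¹ * FAd.val W V y ∈ fixAdd (V ⊓ W) := fun g hg => by
          rw [map_mul, map_inv₀, map_natCast, apply_val_fad W V y hg]
        refine mem_pMul.mpr ⟨FAd.mk W V ((p : PadicAlgCl q)⁻¹ * FAd.val W V y) hm, ?_,
          FAd.val_injective W V ?_⟩
        · rw [mem_ballS, FAd.val_mk, norm_mul, norm_inv, inv_mul_le_iff₀ norm_natCast_prime_pos,
            mul_comm]
          exact hy
        · rw [map_nsmul, FAd.val_mk, nsmul_eq_mul,
            mul_inv_cancel_left₀ (Nat.cast_ne_zero.mpr hp.out.ne_zero)]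
    let ξ : (nearS W V F e).Mod →+ Quo X (pMul p X) := AddMonoidHom.mk'
      (fun x => Quo.mk X (pMul p X) ⟨FAd.mk W V _ (hsub x.1), x.2⟩) fun x y => by
        rw [← map_add, ← sub_eq_zero, ← map_sub, Quo.mk_eq_zero_iff, hpB]
        show ‖(Fx.val W V (x.1 + y.1)).val - 1 -
          (((Fx.val W V x.1).val - 1) + ((Fx.val W V y.1).val - 1))‖ ≤ _
        rw [map_add, Ux.val_add, show (Fx.val W V x.1).val * (Fx.val W V y.1).val - 1 -
          (((Fx.val W V x.1).val - 1) + ((Fx.val W V y.1).val - 1)) =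
            ((Fx.val W V x.1).val - 1) * ((Fx.val W V y.1).val - 1) by ring, norm_mul]
        exact mul_le_mul x.2 (le_trans y.2 hlt.le) (norm_nonneg _) hr.le
    have hker : ∀ x : (nearS W V F e).Mod,
        ξ x = 0 ↔ x.1 ∈ (pMul p (nearS W V F e)).sub := fun x => by
      refine (Quo.mk_eq_zero_iff X (pMul p X)).trans ?_
      rw [hpB, pMul_nearS hF he (by omega)]
      show ‖(Fx.val W V x.1).val - 1‖ ≤ _ ↔ ‖(Fx.val W V x.1).val - 1‖ ≤ _
      rw [he]
      simp only [r, ← pow_add]
      rw [show e + 1 + e = e + e + 1 by omega]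
    let ξ' : Quo (nearS W V F e) (pMul p (nearS W V F e)) →+ Quo X (pMul p X) :=
      QuotientAddGroup.lift _ ξ fun x hx => (hker x).mpr hx
    refine f.val_congr (nsmul_quo le_rfl) ξ' ⟨(injective_iff_map_eq_zero ξ').mpr fun a ha => ?_,
      fun b => ?_⟩ fun g a => ?_
    · obtain ⟨x, rfl⟩ := Quo.mk_surjective _ _ a
      exact (Quo.mk_eq_zero_iff _ _).mpr ((hker x).mp ha)
    · obtain ⟨⟨y, hy⟩, rfl⟩ := Quo.mk_surjective X (pMul p X) b
      have h0 : 1 + FAd.val W V y ≠ 0 := fun h => by
        have h1 : ‖FAd.val W V y‖ = 1 := by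
          rw [eq_neg_of_add_eq_zero_right h, norm_neg, norm_one]
        exact (lt_of_le_of_lt (mem_ballS.mp hy) hr1).ne h1
      refine ⟨Quo.mk _ _ ⟨Fx.mk W V (Ux.mk _ h0) (fun g hg => Ux.ext ?_), ?_⟩, ?_⟩
      · rw [Ux.val_smul, Ux.val_mk, map_add, map_one, apply_val_fad W V y hg]
      · show ‖1 + FAd.val W V y - 1‖ ≤ r
        rw [add_sub_cancel_left]
        exact hy
      · refine congrArg (Quo.mk X (pMul p X)) (Subtype.ext (FAd.val_injective W V ?_))
        exact add_sub_cancel_left 1 (FAd.val W V y)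
    · obtain ⟨x, rfl⟩ := Quo.mk_surjective _ _ a
      obtain ⟨w, rfl⟩ := QuotientGroup.mk'_surjective (V.subgroupOf W) g
      refine congrArg (Quo.mk X (pMul p X)) (Subtype.ext (FAd.val_injective W V ?_))
      show (Fx.val W V (qg W V w • x.1)).val - 1 =
        FAd.val W V (qg W V w • FAd.mk W V ((Fx.val W V x.1).val - 1) (hsub x.1))
      rw [FAd.val_smul, FAd.val_mk]
      rw [map_sub, map_one, Fx.val_smul, Ux.val_smul]
  · obtain ⟨e, he, hres⟩ := exists_ord_natCast (p := p) F
    have he0 : e = 0 := by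
      rw [pIdx, if_neg hpq] at hres
      by_contra hne
      exact (Nat.one_lt_pow hne (one_lt_resCard F)).ne' hres
    subst he0
    have hlt : ‖unif F‖ ^ (0 + 1) < ‖(p : PadicAlgCl q)‖ := by
      rw [he, pow_zero]; exact unif_pow_lt_one F le_rfl
    obtain ⟨hphi, hfin, -⟩ := phi_stable_eq f (nearS W V F 0) (unitS W V) (nearS_le hF 0)
      (relIndex_nearS hF 0)
    have := torStable_nearS (p := p) (W := W) (V := V) hlt
    have : Subsingleton (Quo (nearS W V F 0) (pMul p (nearS W V F 0))) := ⟨fun a b => by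
      suffices h0 : ∀ c, c = (0 : Quo (nearS W V F 0) (pMul p (nearS W V F 0))) by rw [h0 a, h0 b]
      intro c
      obtain ⟨x, rfl⟩ := Quo.mk_surjective _ _ c
      rw [Quo.mk_eq_zero_iff, pMul_nearS hF he (by omega)]
      exact x.2⟩
    rw [← hphi, phi, f.val_of_subsingleton, f.val_of_subsingleton, if_neg hpq]
    simp

include R T hA in
/-- Equivariant maps into the multiplicative group modulo `p`. -/
theorem ldim_hom_Fx :
    ldim p (h0Sub (QG W V) (HomTw (MonoidHom.id (QG W V)) A (Modp p (Fx W V)))) =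
      ldim p (h0Sub (QG W V) (HomTw (MonoidHom.id (QG W V)) A (Mu (chiG (W := W) T.le_ker)))) +
        ldim p (h0Sub (QG W V) A) + (if p = q then W.index * ldim p A else 0) := by
  set f := Euler.invHom (p := p) (P := QG W V) A T.not_dvd_card hA
  have := finite_modp_Fx (W := W) (V := V) R T
  have hFχ : F.fixingSubgroup ≤ χ.ker := hF.le.trans (inf_le_left.trans T.le_ker)
  set U := unitS W V
  let : MulAction (QG W V) Unit :=
    { smul := fun _ _ => (), one_smul := fun _ => rfl, mul_smul := fun _ _ _ => rfl }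
  let v : Fx W V →+ PermLat Unit := AddMonoidHom.mk'
    (fun x => (fun _ => ordUx F (Fx.val W V x) : Unit → ℤ)) fun x y => funext fun _ => by
      show ordUx F (Fx.val W V (x + y)) = _
      rw [map_add, ordUx_add F (val_mem_starF hF x) (val_mem_starF hF y)]
      rfl
  let E : Ses (QG W V) U.Mod (Fx W V) (PermLat Unit) :=
    { i := U.sub.subtype
      q := v
      i_smul := fun _ _ => rfl
      q_smul := fun g x => funext fun u => by
        obtain ⟨w, rfl⟩ := QuotientGroup.mk'_surjective (V.subgroupOf W) g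
        show ordUx F (Fx.val W V (qg W V w • x)) = ordUx F (Fx.val W V x)
        have h1 := mem_fixedUx_fixingSubgroup.mp (val_mem_starF hF (qg W V w • x))
        rw [Fx.val_smul, Ux.val_smul] at h1
        rw [Fx.val_smul, ordUx, ordUx, Ux.val_smul]
        exact ord_apply F _ (mem_fixedUx_fixingSubgroup.mp (val_mem_starF hF x)) h1
          (Ux.val_ne_zero _)
      inj := Subtype.val_injective
      surj := fun n => by
        refine ⟨(n : Unit → ℤ) () • Fx.mk W V (unifUx F) (by
          rw [← hF]; exact mem_fixedUx_fixingSubgroup.mpr (unif_mem F)), funext fun u => ?_⟩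
        show ordUx F (Fx.val W V (_ • _)) = _
        rw [map_zsmul, Fx.val_mk,
          ordUx_zsmul F (mem_fixedUx_fixingSubgroup.mpr (unif_mem F) : unifUx F ∈ starF F),
          ordUx_unif, mul_one]
      exact := fun x => by
        have key : v x = 0 ↔ x ∈ U.sub := by
          rw [mem_unitS]
          refine Iff.trans ⟨fun h => congrFun h (), fun h => funext fun _ => h⟩
            (ord_eq_zero_iff F (mem_fixedUx_fixingSubgroup.mp (val_mem_starF hF x))
              (Ux.val_ne_zero _))
        exact key.trans ⟨fun h => ⟨⟨x, h⟩, rfl⟩, fun ⟨a, ha⟩ => ha ▸ a.2⟩ }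
  have hC : ∀ c : PermLat Unit, p • c = 0 → c = 0 := fun c hc => funext fun u => by
    have h := congrFun hc u
    change p • (c : Unit → ℤ) u = 0 at h
    exact (smul_eq_zero.mp h).resolve_left hp.out.ne_zero
  set E' := E.modp (p := p) hC
  have : Finite (Modp p U.Mod) := Finite.of_injective _ E'.inj
  have hsum := f.add _ _ _ (nsmul_modp p (Fx W V)) E'
  -- the units as a quotient
  let eU : Modp p U.Mod →+ Quo U (pMul p U) :=
    QuotientAddGroup.lift _ (Quo.mk U (pMul p U)) fun x hx => by
      obtain ⟨y, rfl⟩ := hx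
      exact (Quo.mk_eq_zero_iff U _).mpr (mem_pMul.mpr ⟨y.1, y.2, rfl⟩)
  have heU : Function.Bijective eU := by
    refine ⟨(injective_iff_map_eq_zero eU).mpr fun a ha => ?_, fun b => ?_⟩
    · obtain ⟨x, rfl⟩ := toModp_surjective p U.Mod a
      obtain ⟨y, hy, hyx⟩ := mem_pMul.mp ((Quo.mk_eq_zero_iff U _).mp ha)
      exact (toModp_eq_zero_iff p U.Mod).mpr ⟨⟨y, hy⟩, Subtype.ext hyx⟩
    · obtain ⟨x, rfl⟩ := Quo.mk_surjective U _ b
      exact ⟨toModp p U.Mod x, rfl⟩
  have : Finite (Quo U (pMul p U)) := Finite.of_surjective _ heU.2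
  have hUval : f.val (Modp p U.Mod) = f.val (Quo U (pMul p U)) :=
    f.val_congr (nsmul_quo le_rfl) eU heU fun g a => by
      obtain ⟨x, rfl⟩ := toModp_surjective p U.Mod a
      rfl
  -- the roots of unity
  let μ : Mu (chiG (W := W) T.le_ker) →+ (torStable p U).Mod := AddMonoidHom.mk'
    (fun a => ⟨Fx.mk W V (muToUx (χ := χ) R.prim (Mu.of χ (Mu.val _ a))) (by
        rw [← hF, ← val_smul_zetaUx]
        exact (fixedUx F.fixingSubgroup).nsmul_mem (fun g hg => R.smul_z_eq hFχ hg) _),
      mem_unitsUx.mpr (norm_eq_one_of_pow_eq_one hp.out.ne_zero (by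
        show (muToUx (χ := χ) R.prim (Mu.of χ (Mu.val _ a))).val ^ p = 1
        rw [← Ux.val_nsmul, nsmul_muToUx, Ux.val_zero])),
      Fx.val_injective W V (by
        show Fx.val W V (p • _) = _
        rw [map_nsmul, Fx.val_mk, nsmul_muToUx, map_zero])⟩) fun a b =>
      Subtype.ext (Fx.val_injective W V (by simp [map_add]))
  have hμ : Function.Bijective μ := by
    refine ⟨fun a b h => ?_, fun x => ?_⟩
    · have h1 := congrArg (fun z : (torStable p U).Mod => Fx.val W V z.1) h
      exact Mu.ext _ (congrArg (Mu.val χ) (muToUx_injective R.prim h1) :)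
    · obtain ⟨a, ha⟩ := exists_muToUx_eq (χ := χ) R.prim (x := Fx.val W V x.1) (by
        rw [← map_nsmul, show p • x.1 = 0 from x.2.2, map_zero])
      exact ⟨Mu.of _ (Mu.val χ a), Subtype.ext (Fx.val_injective W V ha)⟩
  have : Finite (torStable p U).Mod := Finite.of_surjective _ hμ.2
  have hμval : f.val (Mu (chiG (W := W) T.le_ker)) = f.val (torStable p U).Mod :=
    f.val_congr (nsmul_torStable U) μ hμ fun g a => Subtype.ext (Fx.val_injective W V (by
      obtain ⟨w, rfl⟩ := QuotientGroup.mk'_surjective (V.subgroupOf W) g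
      rw [Stable.coe_smul, Fx.val_smul]
      show muToUx (χ := χ) R.prim (Mu.of χ (Mu.val _ (qg W V w • a))) =
        (w : Gal' q) • muToUx (χ := χ) R.prim (Mu.of χ (Mu.val _ a))
      rw [← muToUx_smul R.prim R.act]
      exact congrArg _
        (Mu.ext χ (by rw [Mu.val_of, Mu.val_smul, Mu.val_smul, Mu.val_of, chiG_qg]))))
  have hphi := invHom_phi_unitS T hF hA
  have hUnit : ldim p (h0Sub (QG W V) (FunMod Unit A)) = ldim p (h0Sub (QG W V) A) :=
    ldim_congr p
      { toFun := fun φ => ⟨(φ.1 : Unit → A) (), fun g => congrFun (φ.2 g) ()⟩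
        invFun := fun a => ⟨(fun _ => a.1 : Unit → A), fun g => funext fun _ => a.2 g⟩
        left_inv := fun φ => Subtype.ext (funext fun _ => rfl)
        right_inv := fun a => rfl }
  have hperm := invHom_permLat (p := p) (P := QG W V) Unit T.not_dvd_card hA
  rw [hUnit] at hperm
  simp only [phi, f, U, Euler.invHom, AddInv.latVal] at hsum hUval hμval hphi hperm ⊢
  omega

end FermatAgent.CFT.LocalEuler
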