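import Fermat.Agent.CFT.LocalEuler.Units
import Fermat.Agent.CFT.Euler.Layer

/-!
The local Euler characteristic.
-/

set_option autoImplicit false
set_option maxSynthPendingDepth 3

noncomputable section

open scoped Classical

namespace FermatAgent.CFT.LocalEuler

open Coh Euler Local

variable {q : ℕ} [hq : Fact q.Prime] {p : ℕ} [hp : Fact p.Prime] {χ : Gal' q →* (ZMod p)ˣ}
  (R : RootDatum χ) {U : Subgroup (Gal' q)}

/-- The correction at the residue characteristic. -/
def lC (p q : ℕ) : ℕ := if p = q then 1 else 0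

variable (hUn : U.Normal) (hUL : U ∈ LL q) (hUχ : U ≤ χ.ker)

include R hUn hUL hUχ in
/-- Coinduced modules of a layer. -/
theorem lEuler_coInd_layer {W V : Subgroup (Gal' q)} [W.FiniteIndex] [(V.subgroupOf W).Normal]
    (T : LLayer χ W V) (hUV : U ≤ V) {N : Type} [AddCommGroup N] [DistribMulAction W N] [Finite N]
    (hV : TrivG W V N) (hN : ∀ n : N, p • n = 0) :
    lEuler p (LL q) (lC p q) (CoInd W N) = 0 := by
  have := T.finite_qg
  let : Fintype (QG W V) := Fintype.ofFinite _
  obtain ⟨F, hFfd, hF, -⟩ := T.field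
  set N' := Dual (χ.comp W.subtype) N
  have hN'p : ∀ f : N', p • f = 0 := fun f => AddMonoidHom.ext fun m => by
    show p • Dual.hom _ N f m = 0
    rw [nsmul_eq_mul, ZMod.natCast_self, zero_mul]
  have : Finite N' := DFunLike.finite (N →+ ZMod p)
  have hN' : TrivG W V N' := trivG_dual T.le_ker hV
  let := quoActG N' hN'
  have hgood : Good p U (CoInd W N) :=
    ⟨fun g hg a => CoInd.smul_eq_self hUn (hUV.trans T.le) (fun v hv n => hV v (hUV hv) n) hg a,
      CoInd.nsmul_eq_zero hN⟩
  have hsm : ((LL q).comap W.subtype).Smooth N := fun n =>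
    ⟨V.comap W.subtype, (LL q).comap_mem _ T.level, fun s hs => hV s hs n⟩
  have h1 : ldim p (H1 (LL q) (CoInd W N)) =
      ldim p (h0Sub (QG W V) (HomTw (MonoidHom.id (QG W V)) N' (Modp p (Fx W V)))) :=
    (ldim_congr p (Equiv.ofBijective _ (CoInd.shapiro_bijective hsm
      ((LL q).mem_of_le T.level T.le)))).trans (ldim_H1_eq_hom R T hV hN)
  have hU := ldim_hom_Fx R T hF (A := N') hN'p
  rw [ldim_hom_mu T.le_ker hV hN, ldim_h0_quoActG p hN'] at hU
  have h0 : ldim p (h0Sub (Gal' q) (CoInd W N)) = ldim p (h0Sub W N) :=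
    ldim_congr p CoInd.h0Equiv.toEquiv
  have h2 := (finite_H2_and_ldim (invDatum χ R.prim R.act) hUn hUL hUχ hgood).2
  have hid : ldim p (eqHom χ (MonoidHom.id (Gal' q)) (CoInd W N)) = ldim p (h0Sub W N') :=
    CoInd.ldim_eqHom_id χ
  have hdim : ldim p (CoInd W N) = W.index * ldim p N := by
    have : Finite (Gal' q ⧸ W) := Subgroup.finite_quotient_of_finiteIndex
    let : Fintype (Gal' q ⧸ W) := Fintype.ofFinite _
    rw [ldim_congr p (CoInd.outEquiv W N).toEquiv, ldim_pi, Finset.sum_const, Finset.card_univ,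
      smul_eq_mul, ← Nat.card_eq_fintype_card]
    rfl
  have hN'dim : ldim p N' = ldim p N := by
    rw [ldim, ldim, show Nat.card N' = Nat.card N from card_homZMod hN]
  rw [hN'dim] at hU
  simp only [lEuler, lC, h1, hU, h2, hid, h0, hdim]
  split_ifs <;> push_cast <;> ring

include R hUn hUL hUχ in
/-- The local Euler characteristic vanishes. -/
theorem lEuler_eq_zero (M : Type) [AddCommGroup M] [DistribMulAction (Gal' q) M] [Finite M]
    (hM : Good p U M) : lEuler p (LL q) (lC p q) M = 0 :=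
  have T := lSet R hUn hUL hUχ
  eq_zero_of_coInd_layer (e := fun M _ _ => lEuler p (LL q) (lC p q) M)
    ⟨hUn, T.finiteIndex, fun h h' E => T.euler_add ⟨h, h'⟩ E⟩ hUχ
    (fun _ _ _ _ hUV hVW hVχ hco _ _ _ _ hV hN =>
      lEuler_coInd_layer R hUn hUL hUχ ⟨hVW, (LL q).mem_of_le hUL hUV, hVχ, hco⟩ hUV hV hN)
    M hM.triv hM.killed

include R in
/-- The local Euler characteristic formula in degree one. -/
theorem finite_H1_and_ldim (hUn : U.Normal) (hUL : U ∈ LL q) (hUχ : U ≤ χ.ker) (M : Type)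
    [AddCommGroup M] [DistribMulAction (Gal' q) M] [Finite M] (hM : Good p U M) :
    Finite (H1 (LL q) M) ∧
      ldim p (H1 (LL q) M) = ldim p (h0Sub (Gal' q) M) +
        ldim p (eqHom χ (MonoidHom.id (Gal' q)) M) + lC p q * ldim p M := by
  refine ⟨finite_H1 R hUL hUχ M hM, ?_⟩
  have h := lEuler_eq_zero R hUn hUL hUχ M hM
  have h2 := (finite_H2_and_ldim (invDatum χ R.prim R.act) hUn hUL hUχ hM).2
  simp only [lEuler, h2] at h
  rw [sub_eq_zero] at h
  zify
  linarith

end FermatAgent.CFT.LocalEuler
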